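/-
Programme T1a (S19), brick G7 DICT (helper59, brick lead): INTERFACE.

The dictionary between
* the Prelude's `JZero M = Pic0 ℚ̄ (ℚ̄·F_M)` (places / divisors of the function field over `ℚ̄`), and
* LINE PAIRS over a number field `L ⊂ ℚ̄`: pairs `(I0, I1)` of nonzero finitely generated modules over
  the two charts `C0 = (integral closure of L[t] in L·F_M)`, `C1 = (integral closure of L[t⁻¹])`,
  agreeing on the overlap (`I0[1/t] = I1[t]`), everything inside the field `L·F_M` (RED style: elements
  of fields, no tensor products, no localisation types).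

THE TRICK: the divisor of a line pair is taken directly ON THE `ℚ̄`-CURVE:
`divFun P w = - min { ord_w (cL f) | f ∈ I_j }` (`j = 0` if `t` is regular at `w`, else `j = 1`), so that
no places over `L`, no degrees over `L`, no ramification in constant field extensions and no
fundamental identity are needed.  The degree of a line pair is the degree of this divisor over `ℚ̄`
(by flat base change of cohomology this is the degree entering Euler characteristics).

Deliverables of DICT (statements at the end of this file, as `Prop`s; proofs in `T1/Dict59/*`,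
`T1/Dict22/*`, ...):
* `DivFinite`     : `divFun P` has finite support (so `divL P : Divisor ℚ̄ (ℚ̄·F_M)`);
* `ClsMul`, `ClsSmul`, `ClsUnit` : `cls` is multiplicative, kills principal pairs;
* `ClsInj`        : `cls P = cls P'` ⇒ `P' = f • P` for some `f ∈ (L·F_M)ˣ`;
* `ClsEquivariant`: `cls (σ_L • P) = σ • cls P` for `L/ℚ` normal, `σ ∈ Gal(ℚ̄/ℚ)`;
* `Exhaust`       : every finite subset of `JZero M` consists of classes of degree-0 line pairs over ONE
                    number field `L ⊇ L₀`, Galois over `ℚ`;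
* `TorsionFinite`, `TorsionLevel` : `J₀(M)[n]` is finite and pointwise fixed by `Gal(ℚ̄/L)`.
-/
import Mathlib
import Fermat.Agent.RED.Interface4
import Fermat.Agent.RED.DESC.CoeffDescent1
import Fermat.Prelude.Def_ModularCurve_ArithmeticGalois

set_option autoImplicit false
set_option linter.unusedSectionVars false
set_option synthInstance.maxHeartbeats 400000
set_option maxHeartbeats 1000000

noncomputable section

open HahnSeries AlgebraicCurve ModularCurve IntermediateField
open Fermat.Agent.RED.Interface4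

namespace Fermat.Agent.T1.Dict59

/-- `Gal(ℚ̄/ℚ)`. -/
abbrev GQ : Type := Qbar ≃ₐ[ℚ] Qbar

variable (M : ℕ) (L : IntermediateField ℚ Qbar)

/-! ### The coefficientwise inclusion `L·F_M → ℚ̄·F_M` -/

/-- The coefficientwise inclusion `cL : L·F_M → ℚ̄·F_M`. -/
def cL : FK M L →+* Fbar M where
  toFun x := ⟨coeffMap (algebraMap L Qbar) (x : LaurentSeries L),
    Fermat.Agent.RED.DESC.CoeffDescent1.coeffMap_mem_laurentBaseChange_of_algHom
      (algebraMap L Qbar) (modularFunctionFieldFull M) x.2⟩
  map_one' := Subtype.ext (map_one _)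
  map_mul' _ _ := Subtype.ext (map_mul _ _ _)
  map_zero' := Subtype.ext (map_zero _)
  map_add' _ _ := Subtype.ext (map_add _ _ _)

theorem coe_cL (x : FK M L) :
    ((cL M L x : Fbar M) : LaurentSeries Qbar) = coeffMap (algebraMap L Qbar) (x : LaurentSeries L) :=
  rfl

theorem cL_injective : Function.Injective (cL M L) := (cL M L).injective

/-- The inclusion `L·F_M → L'·F_M` for `L ≤ L'`. -/
def cLL {L L' : IntermediateField ℚ Qbar} (h : L ≤ L') : FK M L →+* FK M L' where
  toFun x := ⟨coeffMap (IntermediateField.inclusion h).toRingHom (x : LaurentSeries L),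
    Fermat.Agent.RED.DESC.CoeffDescent1.coeffMap_mem_laurentBaseChange_of_algHom
      (IntermediateField.inclusion h).toRingHom (modularFunctionFieldFull M) x.2⟩
  map_one' := Subtype.ext (map_one _)
  map_mul' _ _ := Subtype.ext (map_mul _ _ _)
  map_zero' := Subtype.ext (map_zero _)
  map_add' _ _ := Subtype.ext (map_add _ _ _)

/-! ### Charts and line pairs: generic definitions (any field extension `F / K`, any `t ∈ F`)

Typeclass search at the concrete types `↥L`, `↥(FK M L)` is slow, so the definitions are generic and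
the concrete statements only mention the generic wrappers (RED convention). -/

section Generic

variable {K F : Type*} [Field K] [Field F] [Algebra K F]

/-- Chart `0`: the integral closure of `K[t]` in `F`, as a `K`-subalgebra. -/
def C0 (t : F) : Subalgebra K F :=
  (integralClosure (Algebra.adjoin K {t}) F).restrictScalars K

/-- Chart `1`: the integral closure of `K[t⁻¹]` in `F`. -/
def C1 (t : F) : Subalgebra K F := C0 (K := K) t⁻¹

theorem mem_C0_iff (t x : F) : x ∈ C0 (K := K) t ↔ IsIntegral (Algebra.adjoin K {t}) x := Iff.rfl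

theorem mem_C1_iff (t x : F) : x ∈ C1 (K := K) t ↔ IsIntegral (Algebra.adjoin K {t⁻¹}) x := Iff.rfl

variable (K) in
/-- A line pair over `K` (a line bundle on the curve over `K` glued from the two charts). -/
structure LinePair (t : F) where
  I0 : Submodule (C0 (K := K) t) F
  I1 : Submodule (C1 (K := K) t) F
  fg0 : I0.FG
  fg1 : I1.FG
  ne0 : I0 ≠ ⊥
  ne1 : I1 ≠ ⊥
  /-- `I0[1/t] ⊆ I1[t]` -/
  ov01 : ∀ x ∈ I0, ∃ k : ℕ, t⁻¹ ^ k * x ∈ I1
  /-- `I1[t] ⊆ I0[1/t]` -/
  ov10 : ∀ x ∈ I1, ∃ k : ℕ, t ^ k * x ∈ I0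

namespace LinePair

variable {t : F}

/-- Two line pairs are equal iff their members agree. -/
theorem ext' {P P' : LinePair K t} (h0 : ∀ x, x ∈ P.I0 ↔ x ∈ P'.I0)
    (h1 : ∀ x, x ∈ P.I1 ↔ x ∈ P'.I1) : P = P' := by
  cases P; cases P'
  simp only [mk.injEq]
  exact ⟨Submodule.ext h0, Submodule.ext h1⟩

/-- `P' = f • P`, in elementwise form. -/
def IsScale (f : F) (P P' : LinePair K t) : Prop :=
  (∀ x, x ∈ P'.I0 ↔ ∃ y ∈ P.I0, x = f * y) ∧ (∀ x, x ∈ P'.I1 ↔ ∃ y ∈ P.I1, x = f * y)

/-- `P'' = P * P'`, in elementwise form: `I_j''` is spanned by the products. -/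
def IsMul (P P' P'' : LinePair K t) : Prop :=
  (∀ x, x ∈ P''.I0 ↔
    x ∈ Submodule.span (C0 (K := K) t) {z | ∃ a ∈ P.I0, ∃ b ∈ P'.I0, z = a * b}) ∧
  (∀ x, x ∈ P''.I1 ↔
    x ∈ Submodule.span (C1 (K := K) t) {z | ∃ a ∈ P.I1, ∃ b ∈ P'.I1, z = a * b})

/-- `P` is the unit pair `(C0, C1)`. -/
def IsUnitPair (P : LinePair K t) : Prop :=
  (∀ x, x ∈ P.I0 ↔ x ∈ C0 (K := K) t) ∧ (∀ x, x ∈ P.I1 ↔ x ∈ C1 (K := K) t)

/-- `P'` (over `K'`, inside `F'`) is the base change of `P` along a ring hom `φ : F → F'`:
`I_j' = C_j' · φ(I_j)`. -/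
def IsBaseChangeAlong {K' F' : Type*} [Field K'] [Field F'] [Algebra K' F'] (φ : F →+* F')
    (P : LinePair K t) (P' : LinePair K' (φ t)) : Prop :=
  (∀ x, x ∈ P'.I0 ↔ x ∈ Submodule.span (C0 (K := K') (φ t)) (φ '' (P.I0 : Set F))) ∧
  (∀ x, x ∈ P'.I1 ↔ x ∈ Submodule.span (C1 (K := K') (φ t)) (φ '' (P.I1 : Set F)))

/-- `P'` is the image of `P` under a ring automorphism `g` of `F` fixing `t` (semilinear over an
automorphism of `K`): `I_j' = g(I_j)`. -/
def IsImage (g : F ≃+* F) (P P' : LinePair K t) : Prop :=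
  (∀ x, x ∈ P'.I0 ↔ ∃ y ∈ P.I0, x = g y) ∧ (∀ x, x ∈ P'.I1 ↔ ∃ y ∈ P.I1, x = g y)

end LinePair

end Generic

variable {M L}

namespace LinePair

variable {t : FK M L}

/-! ### The divisor of a line pair on the `ℚ̄`-curve -/

/-- The `w`-adic order of a module `I ⊂ L·F_M`: `min { ord_w (cL f) | f ∈ I, f ≠ 0 }`. -/
def ordAt (w : Place Qbar (Fbar M)) (I : Set (FK M L)) : ℤ :=
  sInf {n : ℤ | ∃ f ∈ I, f ≠ 0 ∧ w.ord (cL M L f) = n}

open Classical in
/-- The divisor of a line pair, as a function on the places of `ℚ̄·F_M`: at a place `w` where `t` is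
regular use chart `0`, else chart `1`.  (Sign: `divFun (f⁻¹ • unit) = div f`, i.e. `P = O(D)` has
`divFun P = D`.) -/
def divFun (P : LinePair L t) (w : Place Qbar (Fbar M)) : ℤ :=
  if cL M L t ∈ w.toValuationSubring then - ordAt w (P.I0 : Set (FK M L))
  else - ordAt w (P.I1 : Set (FK M L))

open Classical in
/-- The divisor of a line pair (`0` if the support were infinite; it never is: `DivFinite`). -/
def divL (P : LinePair L t) : Divisor Qbar (Fbar M) :=
  if h : (Function.support (divFun P)).Finite then Finsupp.ofSupportFinite (divFun P) h else 0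

/-- The degree of a line pair (measured on the `ℚ̄`-curve). -/
def deg (P : LinePair L t) : ℤ := Divisor.degree (divL P)

open Classical in
/-- The class of a line pair in `JZero M` (`0` if the degree is not `0`). -/
def cls (P : LinePair L t) : JZero M :=
  if h : deg P = 0 then Pic0.mk ⟨divL P, Divisor.mem_degZero.2 h⟩ else 0

end LinePair

/-! ### The Galois action on line pairs -/

section Galois

variable (M L)

/-- The arithmetic (coefficientwise) action of `τ ∈ Gal(L/ℚ)` on `L·F_M`. -/
def arith (τ : L ≃ₐ[ℚ] L) : FK M L ≃+* FK M L :=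
  arithmeticRingAut (modularFunctionFieldFull M) τ

variable {M L}

/-- `P' = τ • P` (for a coordinate `t` with rational coefficients: `arith τ t = t`). -/
def LinePair.IsGalois {t : FK M L} (τ : L ≃ₐ[ℚ] L) (P P' : LinePair L t) : Prop :=
  LinePair.IsImage (arith M L τ) P P'

end Galois

/-! ### The deliverables (statements) -/

section Statements

variable (M)

/-- Standing hypothesis on the coordinate: `t` is not constant. -/
def NonConst {L : IntermediateField ℚ Qbar} (t : FK M L) : Prop :=
  Transcendental L t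

/-- **(D-FIN)** the divisor function of a line pair has finite support. -/
def DivFinite : Prop :=
  ∀ (L : IntermediateField ℚ Qbar) (t : FK M L), NonConst M t → ∀ P : LinePair L t,
    (Function.support (LinePair.divFun P)).Finite

/-- **(D-MUL)** `cls` is multiplicative (on pairs of degree `0`; degrees add). -/
def ClsMul : Prop :=
  ∀ (L : IntermediateField ℚ Qbar) (t : FK M L), NonConst M t → ∀ P P' P'' : LinePair L t,
    LinePair.IsMul P P' P'' →
      LinePair.divL P'' = LinePair.divL P + LinePair.divL P'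

/-- **(D-SMUL)** scaling by `f` subtracts `div (cL f)`. -/
def ClsSmul : Prop :=
  ∀ (L : IntermediateField ℚ Qbar) (t : FK M L), NonConst M t → ∀ (f : FK M L), f ≠ 0 →
    ∀ P P' : LinePair L t, LinePair.IsScale f P P' →
      ∀ w : Place Qbar (Fbar M), LinePair.divL P' w = LinePair.divL P w - w.ord (cL M L f)

/-- **(D-UNIT)** the unit pair has divisor `0`. -/
def ClsUnit : Prop :=
  ∀ (L : IntermediateField ℚ Qbar) (t : FK M L), NonConst M t → ∀ P : LinePair L t,
    LinePair.IsUnitPair P → LinePair.divL P = 0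

/-- **(D-INJ)** two degree-`0` line pairs with the same class differ by a scalar of `L·F_M`. -/
def ClsInj : Prop :=
  ∀ (L : IntermediateField ℚ Qbar) (t : FK M L), NonConst M t → ∀ P P' : LinePair L t,
    LinePair.deg P = 0 → LinePair.deg P' = 0 → LinePair.cls P = LinePair.cls P' →
      ∃ f : FK M L, f ≠ 0 ∧ LinePair.IsScale f P P'

/-- **(D-GAL)** Galois equivariance. -/
def ClsEquivariant : Prop :=
  ∀ (L : IntermediateField ℚ Qbar) [Normal ℚ L] (t : FK M L), NonConst M t →
    (∀ τ : L ≃ₐ[ℚ] L, arith M L τ t = t) →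
    ∀ (σ : GQ) (P P' : LinePair L t), LinePair.IsGalois (σ.restrictNormal L) P P' →
      LinePair.deg P' = LinePair.deg P ∧ LinePair.cls P' = σ • LinePair.cls P

/-- **(D-BC)** base change of line pairs does not change the divisor. -/
def ClsBaseChange : Prop :=
  ∀ (L L' : IntermediateField ℚ Qbar) (h : L ≤ L') (t : FK M L), NonConst M t →
    ∀ (P : LinePair L t) (P' : LinePair L' (cLL M h t)),
      LinePair.IsBaseChangeAlong (cLL M h) P P' →
      LinePair.divL P' = LinePair.divL P

/-- **(D-EXH)** exhaustion: finitely many points of `JZero M` are classes of degree-`0` line pairs over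
one number field `L ⊇ L₀`, Galois over `ℚ`. -/
def Exhaust : Prop :=
  ∀ (L₀ : IntermediateField ℚ Qbar) [FiniteDimensional ℚ L₀] (t₀ : FK M L₀), NonConst M t₀ →
    ∀ T : Finset (JZero M),
      ∃ (L : IntermediateField ℚ Qbar) (h : L₀ ≤ L), FiniteDimensional ℚ L ∧ Normal ℚ L ∧
        ∀ x ∈ T, ∃ P : LinePair L (cLL M h t₀), LinePair.deg P = 0 ∧ LinePair.cls P = x

/-- **(D-TORS)** `J₀(M)[n]` is finite. -/
def TorsionFinite : Prop :=
  ∀ n : ℕ, 0 < n → {y : JZero M | n • y = 0}.Finite

/-- **(D-LEVEL)** `J₀(M)[n]` is pointwise fixed by `Gal(ℚ̄/L)` for a number field `L`. -/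
def TorsionLevel : Prop :=
  ∀ n : ℕ, 0 < n → ∃ L : IntermediateField ℚ Qbar, FiniteDimensional ℚ L ∧
    ∀ σ : GQ, (∀ a ∈ L, σ a = a) → ∀ y : JZero M, n • y = 0 → σ • y = y

end Statements

end Fermat.Agent.T1.Dict59
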