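/-
Programme T1a (S19), brick G7 DICT (helper59): INTERFACE, part 2 (amendment after the hub of G4-G6 was
fixed as `PicX c0 L = LinePic (c0.baseChange L)` with everything downstream living on the subgroup
generated by POINT classes).

What DICT finally delivers (`DICT-FINAL`, assembled from layer (A) = this field-level dictionary and layer
(B) = the adapter line pairs ↔ line two-chart modules): an injective, Galois-equivariant homomorphism
`J₀(M)[n] → PicX c0 L` with values in the subgroup generated by the classes of `L`-points.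

New statements of layer (A):
* `ScaleOfPrincipal` : the GENERAL injectivity statement (no degrees): if `divL P' - divL P` is minus the
  divisor of a function `g` of `ℚ̄·F_M`, then `P' = f • P` for some `f ∈ L·F_M` (`ClsInj` is the special
  case of two pairs of degree `0` with the same class);
* `IsRatPlace L w`   : the place `w` of `ℚ̄·F_M` is fixed by `Gal(ℚ̄/L)` ("`w` is an `L`-rational point");
* `IsPtPair w P`     : `P` is the ideal sheaf of the point `w`: `I_j = {f ∈ C_j(L) | f(w) = 0}` on the
  chart(s) containing `w`, `I_j = C_j(L)` on the other one;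
* `DivPt`            : `divL P = - [w]` for `IsPtPair w P`, `w` an `L`-rational place;
* `ChartSpan`        : `C_j(ℚ̄) = ℚ̄ · cL (C_j(L))` (the key algebraic input of `DivPt`: no ramification
  and no splitting at rational points in constant field extensions);
* `CoeffFix`         : an element of `L'·F_M` all of whose coefficients lie in `L ≤ L'` lies in `L·F_M`;
* `RatLevel`         : every finite set of places consists of `L`-rational places for ONE number field `L`
  containing a given one, Galois over `ℚ`.
-/
import Mathlib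
import Fermat.Agent.T1.Dict59.Iface
import Fermat.Agent.X0.FFDefs

set_option autoImplicit false
set_option linter.unusedSectionVars false
set_option synthInstance.maxHeartbeats 400000
set_option maxHeartbeats 1000000

noncomputable section

open HahnSeries AlgebraicCurve ModularCurve IntermediateField
open Fermat.Agent.RED.Interface4

namespace Fermat.Agent.T1.Dict59

variable (M : ℕ)

/-- Standing hypothesis on the coordinate, strong form: `t` is transcendental over `L` and `L·F_M` is
finite over `L(t)`. -/
def IsCoord {L : IntermediateField ℚ Qbar} (t : FK M L) : Prop :=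
  Fermat.Agent.X0.FF.IsGen L t

/-- **(D-INJ, general form)**: if `divL P' = divL P - div g` for a nonzero function `g` of `ℚ̄·F_M`, then
`P' = f • P` for some nonzero `f ∈ L·F_M`. -/
def ScaleOfPrincipal : Prop :=
  ∀ (L : IntermediateField ℚ Qbar) (t : FK M L), IsCoord M t → ∀ P P' : LinePair L t,
    (∃ g : Fbar M, g ≠ 0 ∧
      ∀ w : Place Qbar (Fbar M), LinePair.divL P' w = LinePair.divL P w - w.ord g) →
    ∃ f : FK M L, f ≠ 0 ∧ LinePair.IsScale f P P'

variable {M}

/-- The place `w` of `ℚ̄·F_M` is `L`-rational: fixed by `Gal(ℚ̄/L)` (arithmetic action). -/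
def IsRatPlace (L : IntermediateField ℚ Qbar) (w : Place Qbar (Fbar M)) : Prop :=
  ∀ σ : GQ, (∀ a ∈ L, σ a = a) → arithmeticGalois (modularFunctionFieldFull M) σ • w = w

/-- `P` is the ideal sheaf of the point `w` (functions of the charts vanishing at `w`). -/
def IsPtPair {L : IntermediateField ℚ Qbar} {t : FK M L} (w : Place Qbar (Fbar M))
    (P : LinePair L t) : Prop :=
  (∀ x, x ∈ P.I0 ↔ x ∈ C0 (K := L) t ∧
    (cL M L t ∈ w.toValuationSubring → x = 0 ∨ 0 < w.ord (cL M L x))) ∧
  (∀ x, x ∈ P.I1 ↔ x ∈ C1 (K := L) t ∧
    (cL M L t⁻¹ ∈ w.toValuationSubring → x = 0 ∨ 0 < w.ord (cL M L x)))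

variable (M)

/-- **(D-PT)** the divisor of the ideal sheaf of an `L`-rational point `w` is `-[w]`. -/
def DivPt : Prop :=
  ∀ (L : IntermediateField ℚ Qbar) (t : FK M L), IsCoord M t →
    ∀ (w : Place Qbar (Fbar M)), IsRatPlace L w → ∀ P : LinePair L t, IsPtPair w P →
      LinePair.divL P = - Finsupp.single w 1

/-- **(D-PT-EX)** the ideal sheaf of an `L`-rational point exists (finite generation: the charts are
noetherian). -/
def ExistsPtPair : Prop :=
  ∀ (L : IntermediateField ℚ Qbar) (t : FK M L), IsCoord M t →
    ∀ (w : Place Qbar (Fbar M)), IsRatPlace L w → ∃ P : LinePair L t, IsPtPair w P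

/-- **(D-SPAN)** `C_0(ℚ̄) = ℚ̄ · cL (C_0(L))` (apply to `t⁻¹` for chart `1`). -/
def ChartSpan : Prop :=
  ∀ (L : IntermediateField ℚ Qbar) (t : FK M L), IsCoord M t →
    ∀ x : Fbar M, x ∈ C0 (K := Qbar) (cL M L t) →
      x ∈ Submodule.span Qbar (cL M L '' (C0 (K := L) t : Set (FK M L)))

/-- **(D-FIX)** an element of `L'·F_M` with all coefficients in `L ≤ L'` lies in `L·F_M`. -/
def CoeffFix : Prop :=
  ∀ (L L' : IntermediateField ℚ Qbar) (h : L ≤ L') (y : FK M L'),
    (∀ k : ℤ, ∃ a : L, ((y : LaurentSeries L').coeff k : Qbar) = a) → ∃ z : FK M L, cLL M h z = y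

/-- **(D-FIXbar)** the same over `ℚ̄`: an element of `ℚ̄·F_M` with all coefficients in `L` lies in
`L·F_M`. -/
def CoeffFixBar : Prop :=
  ∀ (L : IntermediateField ℚ Qbar) (y : Fbar M),
    (∀ k : ℤ, (y : LaurentSeries Qbar).coeff k ∈ L) → ∃ z : FK M L, cL M L z = y

/-- **(D-RAT)** finitely many places are rational over one number field `L ⊇ L₀`, Galois over `ℚ`. -/
def RatLevel : Prop :=
  ∀ (L₀ : IntermediateField ℚ Qbar) [FiniteDimensional ℚ L₀]
    (T : Finset (Place Qbar (Fbar M))),
    ∃ L : IntermediateField ℚ Qbar, L₀ ≤ L ∧ FiniteDimensional ℚ L ∧ Normal ℚ L ∧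
      ∀ w ∈ T, IsRatPlace L w

end Fermat.Agent.T1.Dict59
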