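/-
Programme T1a (S19), brick G7 DICT (helper59): the INPUT of DICT-FINAL from brick G7-C CHARTISO.

`ChartIsoFamily ℓ M c0 H`: for every field `K₁ = ℚ(ζ_M) ≤ L ⊂ ℚ̄` a coordinate `t_L` of `L·F_M` and an
identification `E_L : ChartIso (c0.baseChange L) t_L` of the charts `L ⊗[W] B_j` of the model with the
field-level charts `C_j(L)`, compatible
* with enlarging `L` (`t_tower`, `tower0`, `tower1`: on pure tensors `1 ⊗ b`), and
* with the Galois action of `G_ℓ` on the chart system (`t_gal`, `gal0`, `gal1`).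
-/
import Mathlib
import Fermat.Agent.T1.Assembly41.FinalIface
import Fermat.Agent.T1.Adapt96.ToLinePair
import Fermat.Agent.T1.Dict59.Iface2

set_option autoImplicit false
set_option linter.unusedSectionVars false
set_option linter.style.haveILetI false
set_option synthInstance.maxHeartbeats 400000
set_option maxHeartbeats 1000000

noncomputable section

open TensorProduct IntermediateField

namespace Fermat.Agent.T1.Dict59

open Fermat.Agent Fermat.Agent.Jac Fermat.Agent.T1.RedIface75 Fermat.Agent.TW.B5.Iface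
open Fermat.Agent.T1.HubInst98 Fermat.Agent.T1.GalAct44 Fermat.Agent.T1.Assembly41
open Fermat.Agent.RED.Interface4 Fermat.Agent.T1.Adapt96
open Fermat.Agent.Jac.BaseChange75
open scoped Fermat.Agent.Jac.BaseChange75

variable (ℓ : ℕ) [Fact ℓ.Prime] (M : ℕ) [NeZero M]
  {B0 B1 B01 : Type} [CommRing B0] [CommRing B1] [CommRing B01]
  [Algebra (Wr ℓ M) B0] [Algebra (Wr ℓ M) B1] [Algebra (Wr ℓ M) B01] [Algebra B0 B01]
  [Algebra B1 B01] [IsScalarTower (Wr ℓ M) B0 B01] [IsScalarTower (Wr ℓ M) B1 B01]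
  (c0 : TwoChart (Wr ℓ M) B0 B1 B01) (H : ChartAction c0 (Gp ℓ))

/-- **The chart isomorphisms of the model** (brick G7-C CHARTISO), with their compatibilities. -/
structure ChartIsoFamily where
  /-- the coordinate over `L` -/
  t : ∀ (L : IntermediateField ℚ Qbar) [FiniteDimensional ℚ L] (_ : K1 M ≤ L), FK M L
  isCoord : ∀ (L : IntermediateField ℚ Qbar) [FiniteDimensional ℚ L] (hle : K1 M ≤ L), IsCoord M (t L hle)
  /-- the chart isomorphisms over `L` -/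
  E : ∀ (L : IntermediateField ℚ Qbar) [FiniteDimensional ℚ L] (hle : K1 M ≤ L),
    letI := algAKL (padicPlace ℓ) hle
    ChartIso (c0.baseChange ↥L) (t L hle)
  t_tower : ∀ (L₁ L : IntermediateField ℚ Qbar) [FiniteDimensional ℚ L₁] [FiniteDimensional ℚ L]
      (hle₁ : K1 M ≤ L₁) (hL : L₁ ≤ L),
    t L (hle₁.trans hL) = cLL M hL (t L₁ hle₁)
  tower0 : ∀ (L₁ L : IntermediateField ℚ Qbar) [FiniteDimensional ℚ L₁] [FiniteDimensional ℚ L]
      (hle₁ : K1 M ≤ L₁) (hL : L₁ ≤ L) (b : B0),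
    (letI := algAKL (padicPlace ℓ) (hle₁.trans hL)
     (E L (hle₁.trans hL)).ι0 ((1 : ↥L) ⊗ₜ[Wr ℓ M] b)) =
    cLL M hL (letI := algAKL (padicPlace ℓ) hle₁
      (E L₁ hle₁).ι0 ((1 : ↥L₁) ⊗ₜ[Wr ℓ M] b))
  tower1 : ∀ (L₁ L : IntermediateField ℚ Qbar) [FiniteDimensional ℚ L₁] [FiniteDimensional ℚ L]
      (hle₁ : K1 M ≤ L₁) (hL : L₁ ≤ L) (b : B1),
    (letI := algAKL (padicPlace ℓ) (hle₁.trans hL)
     (E L (hle₁.trans hL)).ι1 ((1 : ↥L) ⊗ₜ[Wr ℓ M] b)) =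
    cLL M hL (letI := algAKL (padicPlace ℓ) hle₁
      (E L₁ hle₁).ι1 ((1 : ↥L₁) ⊗ₜ[Wr ℓ M] b))
  t_gal : ∀ (L : IntermediateField ℚ Qbar) [FiniteDimensional ℚ L] [Normal ℚ L] (hle : K1 M ≤ L) (σ : Gp ℓ),
    arith M L (resL L (localGaloisToGlobal ℓ σ)) (t L hle) = t L hle
  gal0 : ∀ (L : IntermediateField ℚ Qbar) [FiniteDimensional ℚ L] [Normal ℚ L] (hle : K1 M ≤ L) (σ : Gp ℓ) (b : B0),
    (letI := algAKL (padicPlace ℓ) hle
     (E L hle).ι0 ((1 : ↥L) ⊗ₜ[Wr ℓ M] ((H.S σ).σ0 b))) =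
    arith M L (resL L (localGaloisToGlobal ℓ σ))
      (letI := algAKL (padicPlace ℓ) hle
       (E L hle).ι0 ((1 : ↥L) ⊗ₜ[Wr ℓ M] b))
  gal1 : ∀ (L : IntermediateField ℚ Qbar) [FiniteDimensional ℚ L] [Normal ℚ L] (hle : K1 M ≤ L) (σ : Gp ℓ) (b : B1),
    (letI := algAKL (padicPlace ℓ) hle
     (E L hle).ι1 ((1 : ↥L) ⊗ₜ[Wr ℓ M] ((H.S σ).σ1 b))) =
    arith M L (resL L (localGaloisToGlobal ℓ σ))
      (letI := algAKL (padicPlace ℓ) hle
       (E L hle).ι1 ((1 : ↥L) ⊗ₜ[Wr ℓ M] b))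

end Fermat.Agent.T1.Dict59
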