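/-
Programme T1a (S19), brick G7 DICT (helper59): the `w`-adic order of a finitely generated module inside a
field, GENERIC part (any ring hom `φ : F₁ → F₂`, any place `w` of `F₂`, any subalgebra `C ⊂ F₁` mapped
into the valuation ring of `w`).

* `ordInf φ w S = sInf { ord_w (φ f) | f ∈ S, f ≠ 0 }`;
* for a nonzero finitely generated `C`-submodule `I` of `F₁`: the infimum is attained
  (`exists_ordInf_eq`), is a lower bound (`ordInf_le`), and is the minimum over generators;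
* `ordInf (f • I) = ord_w (φ f) + ordInf I`, `ordInf (I * I') = ordInf I + ordInf I'`,
  `ordInf C = 0`.
-/
import Mathlib
import Fermat.Agent.X0.FFDict

set_option autoImplicit false
set_option linter.unusedSectionVars false

open AlgebraicCurve

namespace Fermat.Agent.T1.Dict59.OrdInf

open Fermat.Agent.X0.FF

variable {K₁ F₁ K₂ F₂ : Type*} [Field K₁] [Field F₁] [Algebra K₁ F₁] [Field K₂] [Field F₂]
  [Algebra K₂ F₂] (φ : F₁ →+* F₂) (w : Place K₂ F₂)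

/-- The set of orders of the nonzero elements of `S`. -/
def ordSet (S : Set F₁) : Set ℤ := {n | ∃ f ∈ S, f ≠ 0 ∧ w.ord (φ f) = n}

/-- `min { ord_w (φ f) | f ∈ S, f ≠ 0 }` (junk value if the set is empty or unbounded below). -/
noncomputable def ordInf (S : Set F₁) : ℤ := sInf (ordSet φ w S)

theorem map_ne_zero' {f : F₁} (hf : f ≠ 0) : φ f ≠ 0 := (map_ne_zero φ).2 hf

theorem ord_map_mul {f g : F₁} (hf : f ≠ 0) (hg : g ≠ 0) :
    w.ord (φ (f * g)) = w.ord (φ f) + w.ord (φ g) := by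
  rw [map_mul]
  exact w.ord_mul (map_ne_zero' φ hf) (map_ne_zero' φ hg)

theorem ord_map_add_ge {f g : F₁} (h : f + g ≠ 0) :
    min (w.ord (φ f)) (w.ord (φ g)) ≤ w.ord (φ (f + g)) := by
  rw [map_add]
  refine ord_add_ge w ?_
  rw [← map_add]
  exact map_ne_zero' φ h

variable (C : Subalgebra K₁ F₁)

/-- A lower bound for the orders of the generators is a lower bound for the orders of all nonzero
elements of the span. -/
theorem le_ord_of_mem_span (hC : ∀ c ∈ C, φ c ∈ w.toValuationSubring) (s : Set F₁) (b : ℤ)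
    (hb : ∀ g ∈ s, g ≠ 0 → b ≤ w.ord (φ g)) :
    ∀ f ∈ Submodule.span C s, f ≠ 0 → b ≤ w.ord (φ f) := by
  intro f hf
  induction hf using Submodule.span_induction with
  | mem x hx => exact hb x hx
  | zero => exact fun h => absurd rfl h
  | add x y _ _ hx hy =>
    intro hxy
    rcases eq_or_ne x 0 with rfl | hx0
    · rw [zero_add] at hxy ⊢
      exact hy hxy
    rcases eq_or_ne y 0 with rfl | hy0
    · rw [add_zero] at hxy ⊢
      exact hx hxy
    exact le_trans (le_min (hx hx0) (hy hy0)) (ord_map_add_ge φ w hxy)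
  | smul c x _ hx =>
    intro hcx
    have hcx' : (c : F₁) * x ≠ 0 := by rwa [Subalgebra.smul_def, smul_eq_mul] at hcx
    have hc0 : (c : F₁) ≠ 0 := left_ne_zero_of_mul hcx'
    have hx0 : x ≠ 0 := right_ne_zero_of_mul hcx'
    have h1 : 0 ≤ w.ord (φ (c : F₁)) := ord_nonneg_of_mem w (hC c c.2)
    have h2 := hx hx0
    rw [Subalgebra.smul_def, smul_eq_mul, ord_map_mul φ w hc0 hx0]
    omega

variable {C}

/-- The orders of the nonzero elements of a finitely generated module are bounded below. -/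
theorem bddBelow_ordSet (hC : ∀ c ∈ C, φ c ∈ w.toValuationSubring) (I : Submodule C F₁)
    (hfg : I.FG) : BddBelow (ordSet φ w (I : Set F₁)) := by
  classical
  obtain ⟨s, hs⟩ := hfg
  refine ⟨-∑ g ∈ s, |w.ord (φ g)|, ?_⟩
  rintro n ⟨f, hf, hf0, rfl⟩
  rw [SetLike.mem_coe, ← hs] at hf
  refine le_ord_of_mem_span φ w C hC (s : Set F₁) _ (fun g hg _ => ?_) f hf hf0
  have h1 : |w.ord (φ g)| ≤ ∑ g ∈ s, |w.ord (φ g)| :=
    Finset.single_le_sum (f := fun g => |w.ord (φ g)|) (fun _ _ => abs_nonneg _)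
      (Finset.mem_coe.1 hg)
  have h2 := neg_abs_le (w.ord (φ g))
  omega

theorem nonempty_ordSet (I : Submodule C F₁) (hne : I ≠ ⊥) :
    (ordSet φ w (I : Set F₁)).Nonempty := by
  obtain ⟨f, hf, hf0⟩ := Submodule.exists_mem_ne_zero_of_ne_bot hne
  exact ⟨_, f, hf, hf0, rfl⟩

section Bounded

variable (hC : ∀ c ∈ C, φ c ∈ w.toValuationSubring) (I : Submodule C F₁) (hfg : I.FG)
  (hne : I ≠ ⊥)

include hC hfg in
theorem ordInf_le {f : F₁} (hf : f ∈ I) (hf0 : f ≠ 0) :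
    ordInf φ w (I : Set F₁) ≤ w.ord (φ f) :=
  csInf_le (bddBelow_ordSet φ w hC I hfg) ⟨f, hf, hf0, rfl⟩

include hC hfg hne in
theorem exists_ordInf_eq : ∃ f ∈ I, f ≠ 0 ∧ w.ord (φ f) = ordInf φ w (I : Set F₁) :=
  Int.csInf_mem (nonempty_ordSet φ w I hne) (bddBelow_ordSet φ w hC I hfg)

include hne in
theorem le_ordInf {b : ℤ} (hb : ∀ f ∈ I, f ≠ 0 → b ≤ w.ord (φ f)) :
    b ≤ ordInf φ w (I : Set F₁) := by
  refine le_csInf (nonempty_ordSet φ w I hne) ?_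
  rintro n ⟨f, hf, hf0, rfl⟩
  exact hb f hf hf0

include hC hfg hne in
/-- Characterisation of `ordInf`. -/
theorem ordInf_eq_iff {b : ℤ} :
    ordInf φ w (I : Set F₁) = b ↔
      (∀ f ∈ I, f ≠ 0 → b ≤ w.ord (φ f)) ∧ ∃ f ∈ I, f ≠ 0 ∧ w.ord (φ f) = b := by
  constructor
  · rintro rfl
    exact ⟨fun f hf hf0 => ordInf_le φ w hC I hfg hf hf0, exists_ordInf_eq φ w hC I hfg hne⟩
  · rintro ⟨h1, f, hf, hf0, hfb⟩
    refine le_antisymm ?_ (le_ordInf φ w I hne h1)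
    rw [← hfb]
    exact ordInf_le φ w hC I hfg hf hf0

end Bounded

/-- `ordInf` of the chart itself is `0`. -/
theorem ordInf_chart (hC : ∀ c ∈ C, φ c ∈ w.toValuationSubring) (I : Submodule C F₁)
    (hI : ∀ x, x ∈ I ↔ x ∈ C) : ordInf φ w (I : Set F₁) = 0 := by
  have hne : (ordSet φ w (I : Set F₁)).Nonempty :=
    ⟨_, 1, (hI 1).2 C.one_mem, one_ne_zero, rfl⟩
  refine le_antisymm ?_ ?_
  · refine csInf_le ⟨0, ?_⟩ ⟨1, (hI 1).2 C.one_mem, one_ne_zero, by rw [map_one, w.ord_one]⟩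
    rintro n ⟨f, hf, -, rfl⟩
    exact ord_nonneg_of_mem w (hC f ((hI f).1 hf))
  · refine le_csInf hne ?_
    rintro n ⟨f, hf, -, rfl⟩
    exact ord_nonneg_of_mem w (hC f ((hI f).1 hf))

/-- Scaling: `ordInf (f • I) = ord_w (φ f) + ordInf I`. -/
theorem ordInf_scale (hC : ∀ c ∈ C, φ c ∈ w.toValuationSubring) (I I' : Submodule C F₁)
    (hfg : I.FG) (hne : I ≠ ⊥) (hfg' : I'.FG) (hne' : I' ≠ ⊥) {f : F₁} (hf : f ≠ 0)
    (h : ∀ x, x ∈ I' ↔ ∃ y ∈ I, x = f * y) :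
    ordInf φ w (I' : Set F₁) = w.ord (φ f) + ordInf φ w (I : Set F₁) := by
  rw [ordInf_eq_iff φ w hC I' hfg' hne']
  constructor
  · intro x hx hx0
    obtain ⟨y, hy, rfl⟩ := (h x).1 hx
    have hy0 : y ≠ 0 := right_ne_zero_of_mul hx0
    rw [ord_map_mul φ w hf hy0]
    have := ordInf_le φ w hC I hfg hy hy0
    omega
  · obtain ⟨y, hy, hy0, hyo⟩ := exists_ordInf_eq φ w hC I hfg hne
    refine ⟨f * y, (h _).2 ⟨y, hy, rfl⟩, mul_ne_zero hf hy0, ?_⟩
    rw [ord_map_mul φ w hf hy0, hyo]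

/-- Products: `ordInf (I * I') = ordInf I + ordInf I'`. -/
theorem ordInf_mul (hC : ∀ c ∈ C, φ c ∈ w.toValuationSubring) (I I' I'' : Submodule C F₁)
    (hfg : I.FG) (hne : I ≠ ⊥) (hfg' : I'.FG) (hne' : I' ≠ ⊥) (hfg'' : I''.FG) (hne'' : I'' ≠ ⊥)
    (h : ∀ x, x ∈ I'' ↔ x ∈ Submodule.span C {z | ∃ a ∈ I, ∃ b ∈ I', z = a * b}) :
    ordInf φ w (I'' : Set F₁) = ordInf φ w (I : Set F₁) + ordInf φ w (I' : Set F₁) := by
  rw [ordInf_eq_iff φ w hC I'' hfg'' hne'']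
  constructor
  · intro x hx hx0
    refine le_ord_of_mem_span φ w C hC _ _ ?_ x ((h x).1 hx) hx0
    rintro z ⟨a, ha, b, hb, rfl⟩ hz
    have ha0 : a ≠ 0 := left_ne_zero_of_mul hz
    have hb0 : b ≠ 0 := right_ne_zero_of_mul hz
    rw [ord_map_mul φ w ha0 hb0]
    have h1 := ordInf_le φ w hC I hfg ha ha0
    have h2 := ordInf_le φ w hC I' hfg' hb hb0
    omega
  · obtain ⟨a, ha, ha0, hao⟩ := exists_ordInf_eq φ w hC I hfg hne
    obtain ⟨b, hb, hb0, hbo⟩ := exists_ordInf_eq φ w hC I' hfg' hne'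
    refine ⟨a * b, (h _).2 (Submodule.subset_span ⟨a, ha, b, hb, rfl⟩), mul_ne_zero ha0 hb0, ?_⟩
    rw [ord_map_mul φ w ha0 hb0, hao, hbo]

/-- If the generators have nonnegative order and some element has order `0`, then `ordInf = 0`. -/
theorem ordInf_eq_zero (hC : ∀ c ∈ C, φ c ∈ w.toValuationSubring) (s : Set F₁)
    (hs : ∀ g ∈ s, g ≠ 0 → 0 ≤ w.ord (φ g)) {g₀ : F₁} (hg₀ : g₀ ∈ Submodule.span C s)
    (hg₀0 : g₀ ≠ 0) (hg₀o : w.ord (φ g₀) = 0) :
    ordInf φ w ((Submodule.span C s : Submodule C F₁) : Set F₁) = 0 := by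
  have hlb : ∀ f ∈ Submodule.span C s, f ≠ 0 → 0 ≤ w.ord (φ f) :=
    le_ord_of_mem_span φ w C hC s 0 hs
  have hne : (ordSet φ w ((Submodule.span C s : Submodule C F₁) : Set F₁)).Nonempty :=
    ⟨_, g₀, hg₀, hg₀0, rfl⟩
  refine le_antisymm ?_ ?_
  · refine csInf_le ⟨0, ?_⟩ ⟨g₀, hg₀, hg₀0, hg₀o⟩
    rintro n ⟨f, hf, hf0, rfl⟩
    exact hlb f hf hf0
  · refine le_csInf hne ?_
    rintro n ⟨f, hf, hf0, rfl⟩
    exact hlb f hf hf0

end Fermat.Agent.T1.Dict59.OrdInf
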