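/-
Programme T1a (S19), brick G7 DICT (helper59): the DIVISOR CALCULUS of line pairs
(`DivFinite`, `ClsSmul`, `ClsUnit`, `ClsMul` of `Dict59/Iface.lean`).
-/
import Mathlib
import Fermat.Agent.T1.Dict59.Iface
import Fermat.Agent.T1.Dict59.OrdInf
import Fermat.Agent.RED.TOP.FbarFacts20

set_option autoImplicit false
set_option linter.unusedSectionVars false
set_option synthInstance.maxHeartbeats 400000
set_option maxHeartbeats 1000000

noncomputable section

open HahnSeries AlgebraicCurve ModularCurve IntermediateField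
open Fermat.Agent.RED.Interface4 Fermat.Agent.X0.FF

namespace Fermat.Agent.T1.Dict59

open OrdInf

/-! ### Generic: the charts are mapped into the valuation rings -/

section GenericChart

variable {K₁ F₁ K₂ F₂ : Type*} [Field K₁] [Field F₁] [Algebra K₁ F₁] [Field K₂] [Field F₂]
  [Algebra K₂ F₂] (φ : F₁ →+* F₂) (w : Place K₂ F₂)

/-- If `φ` maps the constants `K₁` and `t` into the valuation ring of `w`, it maps the whole chart
`C0 t` (integral closure of `K₁[t]`) into it. -/
theorem map_C0_mem (hK : ∀ a : K₁, φ (algebraMap K₁ F₁ a) ∈ w.toValuationSubring) {t : F₁}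
    (ht : φ t ∈ w.toValuationSubring) : ∀ c ∈ C0 (K := K₁) t, φ c ∈ w.toValuationSubring := by
  intro c hc
  rw [mem_C0_iff] at hc
  -- `φ c` is integral over the valuation ring
  have hsub : ∀ a : Algebra.adjoin K₁ {t}, φ (a : F₁) ∈ w.toValuationSubring := by
    rintro ⟨a, ha⟩
    induction ha using Algebra.adjoin_induction with
    | mem x hx =>
      rw [Set.mem_singleton_iff] at hx
      subst hx
      exact ht
    | algebraMap r => exact hK r
    | add x y _ _ hx hy =>
      show φ (x + y) ∈ _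
      rw [map_add]; exact add_mem hx hy
    | mul x y _ _ hx hy =>
      show φ (x * y) ∈ _
      rw [map_mul]; exact mul_mem hx hy
  obtain ⟨p, hp, hpc⟩ := hc
  -- push the polynomial to the valuation ring
  let ψ : Algebra.adjoin K₁ {t} →+* w.toValuationSubring :=
    (φ.comp (Algebra.adjoin K₁ {t}).val.toRingHom).codRestrict w.toValuationSubring.toSubring
      (fun a => hsub a)
  have hint : IsIntegral w.toValuationSubring (φ c) := by
    refine ⟨p.map ψ, hp.map ψ, ?_⟩
    rw [Polynomial.eval₂_map]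
    have h1 : (algebraMap w.toValuationSubring F₂).comp ψ =
        φ.comp (algebraMap (Algebra.adjoin K₁ {t}) F₁) := RingHom.ext fun a => rfl
    rw [h1, ← Polynomial.hom_eval₂, hpc, map_zero]
  obtain ⟨y, hy⟩ := IsIntegrallyClosed.isIntegral_iff.mp hint
  rw [← hy]
  exact y.2

end GenericChart

/-! ### Concrete part -/

variable {M : ℕ} {L : IntermediateField ℚ Qbar}

theorem cL_algebraMap (a : L) :
    cL M L (algebraMap L (FK M L) a) = algebraMap Qbar (Fbar M) (algebraMap L Qbar a) := by
  apply Subtype.ext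
  rw [coe_cL]
  exact Fermat.Agent.RED.DESC.CoeffDescent1.coeffMap_algebraMap_of_ringHom (algebraMap L Qbar) a

theorem cL_const_mem (w : Place Qbar (Fbar M)) (a : L) :
    cL M L (algebraMap L (FK M L) a) ∈ w.toValuationSubring := by
  rw [cL_algebraMap]
  exact w.algebraMap_mem' _

/-- Chart `0` lands in the valuation ring of a place where `t` is regular. -/
theorem cL_C0_mem (w : Place Qbar (Fbar M)) {t : FK M L} (ht : cL M L t ∈ w.toValuationSubring) :
    ∀ c ∈ C0 (K := L) t, cL M L c ∈ w.toValuationSubring :=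
  map_C0_mem (cL M L) w (cL_const_mem w) ht

/-- Chart `1` lands in the valuation ring of a place where `t` is not regular. -/
theorem cL_C1_mem (w : Place Qbar (Fbar M)) {t : FK M L} (ht : cL M L t ∉ w.toValuationSubring) :
    ∀ c ∈ C1 (K := L) t, cL M L c ∈ w.toValuationSubring := by
  refine map_C0_mem (cL M L) w (cL_const_mem w) ?_
  rw [map_inv₀]
  exact (w.toValuationSubring.mem_or_inv_mem _).resolve_left ht

theorem ordAt_eq_ordInf (w : Place Qbar (Fbar M)) (I : Set (FK M L)) :
    LinePair.ordAt w I = ordInf (cL M L) w I := rfl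

namespace LinePair

variable {t : FK M L}

theorem divFun_of_mem (P : LinePair L t) (w : Place Qbar (Fbar M))
    (ht : cL M L t ∈ w.toValuationSubring) :
    divFun P w = - ordInf (cL M L) w (P.I0 : Set (FK M L)) := by
  unfold divFun
  rw [if_pos ht]; rfl

theorem divFun_of_not_mem (P : LinePair L t) (w : Place Qbar (Fbar M))
    (ht : cL M L t ∉ w.toValuationSubring) :
    divFun P w = - ordInf (cL M L) w (P.I1 : Set (FK M L)) := by
  unfold divFun
  rw [if_neg ht]; rfl

end LinePair

/-! ### Finiteness of the support -/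

section Finite

variable [NeZero M]

/-- The set of zeros and poles of a nonzero function of `ℚ̄·F_M` is finite. -/
theorem finite_ord_ne_zero {g : Fbar M} (hg : g ≠ 0) :
    {w : Place Qbar (Fbar M) | w.ord g ≠ 0}.Finite := by
  obtain ⟨D, hD, -⟩ := Fermat.Agent.RED.TOP.FbarFacts20.exists_divisor_bar M hg
  refine D.support.finite_toSet.subset ?_
  intro w hw
  rw [Finset.mem_coe, Finsupp.mem_support_iff, hD w]
  exact hw

/-- A finitely generated nonzero module over a subalgebra `C`: outside a finite set of places, if `C`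
is mapped into the valuation ring, then `ordInf = 0`. -/
theorem finite_ordInf_ne_zero (C : Subalgebra L (FK M L)) (I : Submodule C (FK M L))
    (hfg : I.FG) (hne : I ≠ ⊥) :
    ∃ T : Set (Place Qbar (Fbar M)), T.Finite ∧ ∀ w : Place Qbar (Fbar M), w ∉ T →
      (∀ c ∈ C, cL M L c ∈ w.toValuationSubring) → ordInf (cL M L) w (I : Set (FK M L)) = 0 := by
  classical
  obtain ⟨s, hs⟩ := hfg
  obtain ⟨g₀, hg₀, hg₀0⟩ := Submodule.exists_mem_ne_zero_of_ne_bot hne
  refine ⟨{w | w.ord (cL M L g₀) ≠ 0} ∪ ⋃ g ∈ (s.filter (· ≠ 0)), {w | w.ord (cL M L g) ≠ 0},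
    ?_, ?_⟩
  · refine (finite_ord_ne_zero ((map_ne_zero (cL M L)).2 hg₀0)).union ?_
    refine Set.Finite.biUnion (Finset.finite_toSet _) ?_
    intro g hg
    have hg0 : g ≠ 0 := (Finset.mem_filter.1 hg).2
    exact finite_ord_ne_zero ((map_ne_zero (cL M L)).2 hg0)
  · intro w hw hC
    rw [Set.mem_union, not_or] at hw
    obtain ⟨hw0, hws⟩ := hw
    have hw0' : w.ord (cL M L g₀) = 0 := by
      by_contra h
      exact hw0 h
    rw [← hs]
    refine ordInf_eq_zero (cL M L) w hC (s : Set (FK M L)) ?_ (hs ▸ hg₀) hg₀0 hw0'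
    intro g hg hg0
    have : w.ord (cL M L g) = 0 := by
      by_contra h
      apply hws
      rw [Set.mem_iUnion₂]
      exact ⟨g, Finset.mem_filter.2 ⟨Finset.mem_coe.1 hg, hg0⟩, h⟩
    rw [this]

theorem divFinite : DivFinite M := by
  intro L t _ P
  obtain ⟨T0, hT0, h0⟩ := finite_ordInf_ne_zero (C0 (K := L) t) P.I0 P.fg0 P.ne0
  obtain ⟨T1, hT1, h1⟩ := finite_ordInf_ne_zero (C1 (K := L) t) P.I1 P.fg1 P.ne1
  refine (hT0.union hT1).subset ?_
  intro w hw
  rw [Function.mem_support] at hw
  by_contra hwT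
  rw [Set.mem_union, not_or] at hwT
  apply hw
  by_cases ht : cL M L t ∈ w.toValuationSubring
  · rw [LinePair.divFun_of_mem P w ht, h0 w hwT.1 (cL_C0_mem w ht), neg_zero]
  · rw [LinePair.divFun_of_not_mem P w ht, h1 w hwT.2 (cL_C1_mem w ht), neg_zero]

theorem divL_apply {t : FK M L} (ht : NonConst M t) (P : LinePair L t)
    (w : Place Qbar (Fbar M)) : LinePair.divL P w = LinePair.divFun P w := by
  unfold LinePair.divL
  rw [dif_pos (divFinite L t ht P)]
  rfl

theorem clsSmul : ClsSmul M := by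
  intro L t ht f hf P P' hPP' w
  rw [divL_apply ht, divL_apply ht]
  by_cases htw : cL M L t ∈ w.toValuationSubring
  · rw [LinePair.divFun_of_mem P' w htw, LinePair.divFun_of_mem P w htw,
      ordInf_scale (cL M L) w (cL_C0_mem w htw) P.I0 P'.I0 P.fg0 P.ne0 P'.fg0 P'.ne0 hf hPP'.1]
    ring
  · rw [LinePair.divFun_of_not_mem P' w htw, LinePair.divFun_of_not_mem P w htw,
      ordInf_scale (cL M L) w (cL_C1_mem w htw) P.I1 P'.I1 P.fg1 P.ne1 P'.fg1 P'.ne1 hf hPP'.2]
    ring

theorem clsUnit : ClsUnit M := by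
  intro L t ht P hP
  ext w
  rw [divL_apply ht, Finsupp.zero_apply]
  by_cases htw : cL M L t ∈ w.toValuationSubring
  · rw [LinePair.divFun_of_mem P w htw, ordInf_chart (cL M L) w (cL_C0_mem w htw) P.I0 hP.1,
      neg_zero]
  · rw [LinePair.divFun_of_not_mem P w htw,
      ordInf_chart (cL M L) w (cL_C1_mem w htw) P.I1 hP.2, neg_zero]

theorem clsMul : ClsMul M := by
  intro L t ht P P' P'' hmul
  ext w
  rw [Finsupp.add_apply, divL_apply ht, divL_apply ht, divL_apply ht]
  by_cases htw : cL M L t ∈ w.toValuationSubring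
  · rw [LinePair.divFun_of_mem P'' w htw, LinePair.divFun_of_mem P w htw,
      LinePair.divFun_of_mem P' w htw,
      ordInf_mul (cL M L) w (cL_C0_mem w htw) P.I0 P'.I0 P''.I0 P.fg0 P.ne0 P'.fg0 P'.ne0
        P''.fg0 P''.ne0 hmul.1]
    ring
  · rw [LinePair.divFun_of_not_mem P'' w htw, LinePair.divFun_of_not_mem P w htw,
      LinePair.divFun_of_not_mem P' w htw,
      ordInf_mul (cL M L) w (cL_C1_mem w htw) P.I1 P'.I1 P''.I1 P.fg1 P.ne1 P'.fg1 P'.ne1
        P''.fg1 P''.ne1 hmul.2]
    ring

end Finite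

end Fermat.Agent.T1.Dict59
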