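/-
Programme T1a (S19), brick G7 DICT (helper59): the ABSTRACT CORE of DICT-FINAL.

Setting: `L ⊂ ℚ̄` a field, `c : TwoChart L R0 R1 R01` a two-chart curve over `L` with Dedekind charts,
`E : ChartIso c t` the identification of its charts with the field-level charts `C0(L)`, `C1(L)` of
`L·F_M` (helper96's adapter).  For ideal pairs `D` with nonzero ideals:
* `lp E D h : LinePair L t`, `cl c D h : LinePic c`;
* `cl_mul`, `cl_top`, `divL_lp_mul`, `divL_lp_top`;
* `cl_eq_iff` : `cl D = cl D' ↔ divL (lp D') = divL (lp D) - div g` for some function `g` of `ℚ̄·F_M`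
  (adapter (B1) + (D-SMUL) + (D-INJ)).

Point data: a family `pt i` of ideal pairs ("points") with places `pl i` such that
`divL (lp (pt i)) = -[pl i]`.  Then
* `zCl : (ι →₀ ℤ) →+ Additive (LinePic c)`, `D ↦ ∏ cl(pt i)^{D i}` (the class of `O(-D)`),
* `zDiv : (ι →₀ ℤ) →+ Divisor`, `D ↦ Σ D(i) [pl i]`,
* `exists_pair` : every effective `A` is realised by an integral ideal pair,
* `zCl_eq_zero_iff` : **`zCl D = 0 ↔ zDiv D` is principal**.
-/
import Mathlib
import Fermat.Agent.T1.Dict59.InjFinal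
import Fermat.Agent.T1.Adapt96.Main
import Fermat.Agent.Jac.AbelJacobi73.PicQ

set_option autoImplicit false
set_option linter.unusedSectionVars false
set_option linter.style.haveILetI false
set_option synthInstance.maxHeartbeats 400000
set_option maxHeartbeats 1000000

noncomputable section

open HahnSeries AlgebraicCurve ModularCurve IntermediateField
open Fermat.Agent.RED.Interface4
open Fermat.Agent.Jac Fermat.Agent.Jac.LineOps39 Fermat.Agent.Jac.JGroup85Pic
open Fermat.Agent.Jac.AbelJacobi73 Fermat.Agent.T1.Adapt96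

namespace Fermat.Agent.T1.Dict59.Eff

variable {M : ℕ} [NeZero M] {L : IntermediateField ℚ Qbar}
  {R0 R1 R01 : Type} [CommRing R0] [CommRing R1] [CommRing R01]
  [Algebra L R0] [Algebra L R1] [Algebra L R01] [Algebra R0 R01] [Algebra R1 R01]
  [IsScalarTower L R0 R01] [IsScalarTower L R1 R01] [IsDedekindDomain R0] [IsDedekindDomain R1]
  {c : TwoChart L R0 R1 R01} {t : FK M L} (E : ChartIso c t)

/-- The line pair of an ideal pair with nonzero ideals. -/
def lp (D : IdealPair R0 R1 R01) (h : PairNeBot D) : LinePair L t :=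
  E.toLinePair D h.ne0 h.ne1 (IsNoetherian.noetherian _) (IsNoetherian.noetherian _)

variable (c) in
/-- The class of the ideal sheaf of an ideal pair with nonzero ideals. -/
def cl (D : IdealPair R0 R1 R01) (h : PairNeBot D) : LinePic c :=
  LinePic.mk c (ofIdeals c D) (h.isLine_ofIdeals c)

theorem cl_mul (D D' : IdealPair R0 R1 R01) (h : PairNeBot D) (h' : PairNeBot D') :
    cl c (D.mul D') (h.mul h') = cl c D h * cl c D' h' :=
  mk_ofIdeals_mul c D D' _ _ _

theorem cl_top : cl c (IdealPair.top : IdealPair R0 R1 R01) pairNeBot_top = 1 := by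
  have h := cl_mul (c := c) IdealPair.top IdealPair.top pairNeBot_top pairNeBot_top
  have htt : (IdealPair.top : IdealPair R0 R1 R01).mul IdealPair.top = IdealPair.top :=
    idealPair_ext (by simp) (by simp)
  have h2 : cl c ((IdealPair.top : IdealPair R0 R1 R01).mul IdealPair.top)
      (pairNeBot_top.mul pairNeBot_top) = cl c IdealPair.top pairNeBot_top := by
    congr 1
  rw [h2] at h
  exact mul_eq_left.1 h.symm

theorem divL_lp_mul (ht : IsCoord M t) (D D' : IdealPair R0 R1 R01) (h : PairNeBot D)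
    (h' : PairNeBot D') :
    LinePair.divL (lp E (D.mul D') (h.mul h')) =
      LinePair.divL (lp E D h) + LinePair.divL (lp E D' h') :=
  clsMul L t ht.nonConst _ _ _ (E.isMul_toLinePair D D' _ _ _ _ _ _ _ _ _ _ _ _)

theorem divL_lp_top (ht : IsCoord M t) :
    LinePair.divL (lp E (IdealPair.top : IdealPair R0 R1 R01) pairNeBot_top) = 0 :=
  clsUnit L t ht.nonConst _ (E.isUnitPair_toLinePair_top _ _ _ _)

/-- **Equality of classes = linear equivalence of divisors.** -/
theorem cl_eq_iff (ht : IsCoord M t) (D D' : IdealPair R0 R1 R01) (h : PairNeBot D)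
    (h' : PairNeBot D') :
    cl c D h = cl c D' h' ↔ ∃ g : Fbar M, g ≠ 0 ∧ ∀ w : Place Qbar (Fbar M),
      LinePair.divL (lp E D' h') w = LinePair.divL (lp E D h) w - w.ord g := by
  unfold cl
  rw [E.mk_ofIdeals_eq_iff_isScale D D' h.ne0 h.ne1 (IsNoetherian.noetherian _)
    (IsNoetherian.noetherian _) h'.ne0 h'.ne1 (IsNoetherian.noetherian _)
    (IsNoetherian.noetherian _)]
  constructor
  · rintro ⟨f, hf, hs⟩
    exact ⟨cL M L f, (map_ne_zero (cL M L)).2 hf,
      fun w => clsSmul L t ht.nonConst f hf _ _ hs w⟩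
  · rintro ⟨g, hg, hw⟩
    exact scaleOfPrincipal_holds M L t ht (lp E D h) (lp E D' h') ⟨g, hg, hw⟩

/-! ### Point data -/

variable {ι : Type} (pt : ι → IdealPair R0 R1 R01) (hpt : ∀ i, PairNeBot (pt i))
  (pl : ι → Place Qbar (Fbar M))

/-- `ℕ`-valued to `ℤ`-valued finitely supported functions. -/
def natCast : (ι →₀ ℕ) →+ (ι →₀ ℤ) := Finsupp.mapRange.addMonoidHom (Nat.castAddMonoidHom ℤ)

@[simp] theorem natCast_apply (A : ι →₀ ℕ) (i : ι) : natCast A i = (A i : ℤ) := rfl

theorem natCast_single (i : ι) (n : ℕ) :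
    natCast (Finsupp.single i n) = Finsupp.single i (n : ℤ) := by
  ext j
  by_cases hij : i = j
  · subst hij; simp
  · simp [hij]

variable (c) in
/-- `D ↦ ∏ cl(pt i)^{D i}`, the class of the ideal sheaf `O(-D)`. -/
def zCl : (ι →₀ ℤ) →+ Additive (LinePic c) :=
  Finsupp.liftAddHom (fun i => zmultiplesHom (Additive (LinePic c))
    (Additive.ofMul (cl c (pt i) (hpt i))))

/-- `D ↦ Σ D(i) [pl i]`. -/
def zDiv : (ι →₀ ℤ) →+ Divisor Qbar (Fbar M) :=
  Finsupp.liftAddHom (fun i => zmultiplesHom (Divisor Qbar (Fbar M)) (Finsupp.single (pl i) 1))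

theorem zCl_single (i : ι) (n : ℤ) :
    zCl c pt hpt (Finsupp.single i n) = n • Additive.ofMul (cl c (pt i) (hpt i)) := by
  unfold zCl
  rw [Finsupp.liftAddHom_apply_single]
  rfl

theorem zDiv_single (i : ι) (n : ℤ) :
    zDiv pl (Finsupp.single i n) = Finsupp.single (pl i) n := by
  unfold zDiv
  rw [Finsupp.liftAddHom_apply_single]
  show n • Finsupp.single (pl i) (1 : ℤ) = _
  rw [Finsupp.smul_single, smul_eq_mul, mul_one]

/-- Every effective divisor on the points is realised by an integral ideal pair. -/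
theorem exists_pair (ht : IsCoord M t)
    (hdiv : ∀ i, LinePair.divL (lp E (pt i) (hpt i)) = - Finsupp.single (pl i) 1)
    (A : ι →₀ ℕ) :
    ∃ (D : IdealPair R0 R1 R01) (h : PairNeBot D),
      Additive.ofMul (cl c D h) = zCl c pt hpt (natCast A) ∧
      LinePair.divL (lp E D h) = - zDiv pl (natCast A) := by
  induction A using Finsupp.induction_linear with
  | zero =>
    refine ⟨IdealPair.top, pairNeBot_top, ?_, ?_⟩
    · rw [map_zero, map_zero, cl_top]; rfl
    · rw [map_zero, map_zero, neg_zero, divL_lp_top E ht]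
  | add A B hA hB =>
    obtain ⟨D, h, h1, h2⟩ := hA
    obtain ⟨D', h', h1', h2'⟩ := hB
    refine ⟨D.mul D', h.mul h', ?_, ?_⟩
    · rw [map_add, map_add, cl_mul D D' h h', ofMul_mul, h1, h1']
    · rw [map_add, map_add, divL_lp_mul E ht D D' h h', h2, h2', neg_add]
  | single i n =>
    induction n with
    | zero =>
      refine ⟨IdealPair.top, pairNeBot_top, ?_, ?_⟩
      · rw [Finsupp.single_zero, map_zero, map_zero, cl_top]; rfl
      · rw [Finsupp.single_zero, map_zero, map_zero, neg_zero, divL_lp_top E ht]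
    | succ n ih =>
      obtain ⟨D, h, h1, h2⟩ := ih
      refine ⟨D.mul (pt i), h.mul (hpt i), ?_, ?_⟩
      · rw [Finsupp.single_add, map_add, map_add, cl_mul D (pt i) h (hpt i), ofMul_mul, h1,
          natCast_single i 1, zCl_single, Nat.cast_one, one_smul]
      · rw [Finsupp.single_add, map_add, map_add, divL_lp_mul E ht D (pt i) h (hpt i), h2, hdiv i,
          natCast_single i 1, zDiv_single, Nat.cast_one, neg_add]

/-- Decomposition into positive and negative part. -/
theorem exists_natCast_sub (D : ι →₀ ℤ) : ∃ A B : ι →₀ ℕ, D = natCast A - natCast B := by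
  refine ⟨D.mapRange Int.toNat rfl, (-D).mapRange Int.toNat rfl, ?_⟩
  ext i
  simp only [Finsupp.coe_sub, Pi.sub_apply, natCast_apply, Finsupp.mapRange_apply,
    Finsupp.coe_neg, Pi.neg_apply]
  omega

/-- **The kernel of `zCl` consists of the principal divisors.** -/
theorem zCl_eq_zero_iff (ht : IsCoord M t)
    (hdiv : ∀ i, LinePair.divL (lp E (pt i) (hpt i)) = - Finsupp.single (pl i) 1)
    (D : ι →₀ ℤ) :
    zCl c pt hpt D = 0 ↔ ∃ g : Fbar M, g ≠ 0 ∧ ∀ w : Place Qbar (Fbar M), zDiv pl D w = w.ord g := by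
  obtain ⟨A, B, rfl⟩ := exists_natCast_sub D
  obtain ⟨DA, hA, hA1, hA2⟩ := exists_pair E pt hpt pl ht hdiv A
  obtain ⟨DB, hB, hB1, hB2⟩ := exists_pair E pt hpt pl ht hdiv B
  rw [map_sub, map_sub, sub_eq_zero, ← hA1, ← hB1]
  have h1 : Additive.ofMul (cl c DA hA) = Additive.ofMul (cl c DB hB) ↔ cl c DA hA = cl c DB hB :=
    Additive.ofMul.injective.eq_iff
  rw [h1, cl_eq_iff E ht DA DB hA hB, hA2, hB2]
  constructor
  · rintro ⟨g, hg, h⟩
    refine ⟨g⁻¹, inv_ne_zero hg, fun w => ?_⟩
    have := h w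
    rw [Finsupp.neg_apply, Finsupp.neg_apply] at this
    rw [Finsupp.sub_apply, w.ord_inv]
    omega
  · rintro ⟨g, hg, h⟩
    refine ⟨g⁻¹, inv_ne_zero hg, fun w => ?_⟩
    have := h w
    rw [Finsupp.sub_apply] at this
    rw [Finsupp.neg_apply, Finsupp.neg_apply, w.ord_inv]
    omega

end Fermat.Agent.T1.Dict59.Eff
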