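/-
Programme T1a (S19), brick G7 DICT (helper59): functoriality of `zCl` / `zDiv` (complements to
`EffCore`).

* `zCl_map`  : a group homomorphism `m` of Picard groups mapping point classes to point classes
               (`m (cl (pt i)) = cl' (pt' (e i))`) satisfies `m (zCl D) = zCl' (mapDomain e D)`;
* `zCl_mem`  : `zCl D` lies in every subgroup containing the point classes;
* `zDiv_mapDomain`, `zDiv_smul`, `zDiv_subtypeDomain`.
-/
import Mathlib
import Fermat.Agent.T1.Dict59.EffCore

set_option autoImplicit false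
set_option linter.unusedSectionVars false
set_option linter.style.haveILetI false
set_option synthInstance.maxHeartbeats 400000
set_option maxHeartbeats 1000000

noncomputable section

open HahnSeries AlgebraicCurve ModularCurve IntermediateField
open Fermat.Agent.RED.Interface4
open Fermat.Agent.Jac Fermat.Agent.Jac.LineOps39 Fermat.Agent.Jac.JGroup85Pic
open Fermat.Agent.Jac.AbelJacobi73 Fermat.Agent.T1.Adapt96

namespace Fermat.Agent.T1.Dict59.Eff

section Map

variable {L L' : IntermediateField ℚ Qbar}
  {R0 R1 R01 : Type} [CommRing R0] [CommRing R1] [CommRing R01]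
  [Algebra L R0] [Algebra L R1] [Algebra L R01] [Algebra R0 R01] [Algebra R1 R01]
  [IsScalarTower L R0 R01] [IsScalarTower L R1 R01] [IsDedekindDomain R0] [IsDedekindDomain R1]
  {c : TwoChart L R0 R1 R01}
  {R0' R1' R01' : Type} [CommRing R0'] [CommRing R1'] [CommRing R01']
  [Algebra L' R0'] [Algebra L' R1'] [Algebra L' R01'] [Algebra R0' R01'] [Algebra R1' R01']
  [IsScalarTower L' R0' R01'] [IsScalarTower L' R1' R01'] [IsDedekindDomain R0']
  [IsDedekindDomain R1']
  {c' : TwoChart L' R0' R1' R01'}
  {ι ι' : Type} (pt : ι → IdealPair R0 R1 R01) (hpt : ∀ i, PairNeBot (pt i))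
  (pt' : ι' → IdealPair R0' R1' R01') (hpt' : ∀ i, PairNeBot (pt' i))

theorem zCl_map (m : LinePic c →* LinePic c') (e : ι → ι')
    (hm : ∀ i, m (cl c (pt i) (hpt i)) = cl c' (pt' (e i)) (hpt' (e i))) (D : ι →₀ ℤ) :
    m (Additive.toMul (zCl c pt hpt D)) = Additive.toMul (zCl c' pt' hpt' (D.mapDomain e)) := by
  induction D using Finsupp.induction_linear with
  | zero =>
    rw [(zCl c pt hpt).map_zero, Finsupp.mapDomain_zero, (zCl c' pt' hpt').map_zero]
    exact map_one m
  | add A B hA hB =>
    rw [(zCl c pt hpt).map_add, toMul_add, map_mul, hA, hB, Finsupp.mapDomain_add,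
      (zCl c' pt' hpt').map_add, toMul_add]
  | single i n =>
    rw [zCl_single, Finsupp.mapDomain_single, zCl_single, toMul_zsmul, toMul_zsmul, toMul_ofMul,
      toMul_ofMul, map_zpow, hm i]

theorem zCl_mem (S : Subgroup (LinePic c)) (hS : ∀ i, cl c (pt i) (hpt i) ∈ S) (D : ι →₀ ℤ) :
    Additive.toMul (zCl c pt hpt D) ∈ S := by
  induction D using Finsupp.induction_linear with
  | zero => rw [(zCl c pt hpt).map_zero]; exact S.one_mem
  | add A B hA hB => rw [(zCl c pt hpt).map_add, toMul_add]; exact S.mul_mem hA hB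
  | single i n => rw [zCl_single, toMul_zsmul, toMul_ofMul]; exact S.zpow_mem (hS i) n

end Map

section Div

variable {M : ℕ} [NeZero M] {ι ι' : Type}

theorem zDiv_apply (pl : ι → Place Qbar (Fbar M)) (D : ι →₀ ℤ) :
    zDiv pl D = D.mapDomain pl := by
  induction D using Finsupp.induction_linear with
  | zero => rw [(zDiv pl).map_zero, Finsupp.mapDomain_zero]
  | add A B hA hB => rw [(zDiv pl).map_add, hA, hB, Finsupp.mapDomain_add]
  | single i n => rw [zDiv_single, Finsupp.mapDomain_single]

theorem zDiv_mapDomain (pl' : ι' → Place Qbar (Fbar M)) (e : ι → ι') (D : ι →₀ ℤ) :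
    zDiv pl' (D.mapDomain e) = zDiv (pl' ∘ e) D := by
  rw [zDiv_apply, zDiv_apply, Finsupp.mapDomain_comp]

/-- Places in a subtype: restricting a divisor supported in `p` and extending back. -/
theorem zDiv_subtypeDomain (p : Place Qbar (Fbar M) → Prop)
    (X : Divisor Qbar (Fbar M)) (hX : ∀ w, X w ≠ 0 → p w) :
    zDiv (fun i : {w // p w} => i.1) (Finsupp.subtypeDomain p X) = X := by
  classical
  rw [zDiv_apply]
  ext w
  by_cases hw : p w
  · have h1 : Finsupp.mapDomain (fun i : {w // p w} => i.1) (Finsupp.subtypeDomain p X)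
        ((fun i : {w // p w} => i.1) ⟨w, hw⟩) = (Finsupp.subtypeDomain p X) ⟨w, hw⟩ :=
      Finsupp.mapDomain_apply Subtype.val_injective _ _
    exact h1
  · have h0 : X w = 0 := by
      by_contra h
      exact hw (hX w h)
    rw [h0]
    apply Finsupp.mapDomain_of_notMem_range
    rintro ⟨i, hi⟩
    exact hw (hi ▸ i.2)

end Div

end Fermat.Agent.T1.Dict59.Eff
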