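/-
Programme T1a (S19), brick G7 DICT (helper59): vocabulary of DICT-FINAL at one level `L`.

`c0 : TwoChart W B0 B1 B01` the model over `W`, `L ⊂ ℚ̄` a field with `[Algebra W L]`,
`E : ChartIso (c0.baseChange L) t` the identification of the charts `L ⊗[W] B_j` with the field-level
charts `C_j(L)` of `L·F_M` (helper96's adapter, produced by brick G7-C CHARTISO).

* `IsPtOf0 c0 E w q` : the `L`-point `q : B0 →ₐ[W] L` of chart 0 is the point under the place `w` of
  `ℚ̄·F_M`: every `b ∈ B0` is congruent to the constant `q b` modulo `𝔪_w`;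
* `IsPtOf1 c0 E w q` : the same for chart 1.
-/
import Mathlib
import Fermat.Agent.T1.Dict59.Iface2
import Fermat.Agent.T1.Adapt96.ToLinePair
import Fermat.Agent.T1.PtLine75

set_option autoImplicit false
set_option linter.unusedSectionVars false
set_option synthInstance.maxHeartbeats 400000
set_option maxHeartbeats 1000000

noncomputable section

open HahnSeries AlgebraicCurve ModularCurve IntermediateField TensorProduct
open Fermat.Agent.RED.Interface4
open Fermat.Agent.Jac Fermat.Agent.Jac.BaseChange75 Fermat.Agent.T1.Adapt96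
open scoped Fermat.Agent.Jac.BaseChange75

namespace Fermat.Agent.T1.Dict59

variable {W B0 B1 B01 : Type} [CommRing W] [CommRing B0] [CommRing B1] [CommRing B01]
  [Algebra W B0] [Algebra W B1] [Algebra W B01] [Algebra B0 B01] [Algebra B1 B01]
  [IsScalarTower W B0 B01] [IsScalarTower W B1 B01]
  (c0 : TwoChart W B0 B1 B01)
  {M : ℕ} {L : IntermediateField ℚ Qbar} [Algebra W L] {t : FK M L}

/-- `q` is the `L`-point of chart `0` under the place `w`. -/
def IsPtOf0 (E : ChartIso (c0.baseChange L) t) (w : Place Qbar (Fbar M)) (q : B0 →ₐ[W] L) : Prop :=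
  ∀ b : B0, E.ι0 ((1 : L) ⊗ₜ[W] b) = algebraMap L (FK M L) (q b) ∨
    0 < w.ord (cL M L (E.ι0 ((1 : L) ⊗ₜ[W] b) - algebraMap L (FK M L) (q b)))

/-- `q` is the `L`-point of chart `1` under the place `w`. -/
def IsPtOf1 (E : ChartIso (c0.baseChange L) t) (w : Place Qbar (Fbar M)) (q : B1 →ₐ[W] L) : Prop :=
  ∀ b : B1, E.ι1 ((1 : L) ⊗ₜ[W] b) = algebraMap L (FK M L) (q b) ∨
    0 < w.ord (cL M L (E.ι1 ((1 : L) ⊗ₜ[W] b) - algebraMap L (FK M L) (q b)))

end Fermat.Agent.T1.Dict59
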