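/-
Programme T1a (S19), brick G7 DICT (helper59): DICT-FINAL at ONE level `L`.

`c0 : TwoChart W B0 B1 B01`, `L ⊂ ℚ̄` with `[Algebra W L]`, `E : ChartIso (c0.baseChange L) t`, `t` a
coordinate, the charts `L ⊗[W] B_j` Dedekind (instances; from `Dict84.isDedekindDomain_R0/_R1 E ht`).
`PtFacts c0 E` : existence and uniqueness of the `L`-point under an `L`-rational place
(`Dict67/PtOf`).

* `ptIP w`   : the ideal pair of the `L`-point under the `L`-rational place `w`;
* `dmap D`   : `D ↦ ∏ [O(-w)]^{D(w)} ∈ Pic X_L` for a divisor `D` of `ℚ̄·F_M` (only its `L`-rational part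
               counts);
* `dmap_add`, `dmap_mem_picPt`, `dmap_eq_one_iff` (**kernel = principal divisors**).
-/
import Mathlib
import Fermat.Agent.T1.Dict59.EffMap
import Fermat.Agent.T1.Dict59.Level
import Fermat.Agent.T1.Adapt39.Inst
import Fermat.Agent.T1.Dict67.DivPt
import Fermat.Agent.T1.Dict67.PtOf
import Fermat.Agent.T1.Dict84.ChartNoeth

set_option autoImplicit false
set_option linter.unusedSectionVars false
set_option linter.style.haveILetI false
set_option synthInstance.maxHeartbeats 400000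
set_option maxHeartbeats 1000000

noncomputable section

open HahnSeries AlgebraicCurve ModularCurve IntermediateField TensorProduct
open Fermat.Agent.RED.Interface4
open Fermat.Agent.Jac Fermat.Agent.Jac.LineOps39 Fermat.Agent.Jac.JGroup85Pic
open Fermat.Agent.Jac.AbelJacobi73 Fermat.Agent.T1.Adapt96 Fermat.Agent.T1.Adapt39
open Fermat.Agent.Jac.BaseChange75 Fermat.Agent.T1.RedIface75 Fermat.Agent.T1.PtLine75
open scoped Fermat.Agent.Jac.BaseChange75

namespace Fermat.Agent.T1.Dict59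

variable {W B0 B1 B01 : Type} [CommRing W] [CommRing B0] [CommRing B1] [CommRing B01]
  [Algebra W B0] [Algebra W B1] [Algebra W B01] [Algebra B0 B01] [Algebra B1 B01]
  [IsScalarTower W B0 B01] [IsScalarTower W B1 B01]
  (c0 : TwoChart W B0 B1 B01)
  {M : ℕ} [NeZero M] {L : IntermediateField ℚ Qbar} [Algebra W L] {t : FK M L}

/-- Existence and uniqueness of the `L`-point under an `L`-rational place. -/
structure PtFacts (E : ChartIso (c0.baseChange L) t) : Prop where
  ex0 : ∀ w : Place Qbar (Fbar M), IsRatPlace L w → cL M L t ∈ w.toValuationSubring →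
    ∃ q : B0 →ₐ[W] L, IsPtOf0 c0 E w q
  ex1 : ∀ w : Place Qbar (Fbar M), IsRatPlace L w → cL M L t ∉ w.toValuationSubring →
    ∃ q : B1 →ₐ[W] L, IsPtOf1 c0 E w q
  uniq0 : ∀ (w : Place Qbar (Fbar M)) (q q' : B0 →ₐ[W] L),
    IsPtOf0 c0 E w q → IsPtOf0 c0 E w q' → q = q'
  uniq1 : ∀ (w : Place Qbar (Fbar M)) (q q' : B1 →ₐ[W] L),
    IsPtOf1 c0 E w q → IsPtOf1 c0 E w q' → q = q'

/-- The `L`-rational places. -/
abbrev RatPl (M : ℕ) (L : IntermediateField ℚ Qbar) : Type :=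
  {w : Place Qbar (Fbar M) // IsRatPlace L w}

/-- The point facts hold (helper67's `Dict67/PtOf`). -/
theorem ptFacts (E : ChartIso (c0.baseChange L) t) : PtFacts c0 E where
  ex0 := fun w hr hw => Fermat.Agent.T1.Dict67.exists_isPtOf0 c0 E w hr hw
  ex1 := fun w hr hw => Fermat.Agent.T1.Dict67.exists_isPtOf1 c0 E w hr (by
    rw [map_inv₀]
    exact (w.toValuationSubring.mem_or_inv_mem _).resolve_left hw)
  uniq0 := fun w q q' => Fermat.Agent.T1.Dict67.isPtOf0_unique c0 E w q q'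
  uniq1 := fun w q q' => Fermat.Agent.T1.Dict67.isPtOf1_unique c0 E w q q'

namespace LevelMap

variable {c0} (ht : IsCoord M t) (E : ChartIso (c0.baseChange L) t)

include ht E in
/-- The ideal of an `L`-point of chart `0` is nonzero. -/
theorem ptIdeal0_ne_bot (q : B0 →ₐ[W] L) : (ptIdeal q : Ideal (L ⊗[W] B0)) ≠ ⊥ := by
  intro h
  have h1 := t_sub_mem_ptIdeal c0 q
  rw [h, Submodule.mem_bot] at h1
  have h2 := congrArg E.ι0 h1
  rw [map_sub, map_zero, E.ι0_apply, E.map_t, E.ι0_apply, E.linear0] at h2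
  apply ht.transcendental
  rw [sub_eq_zero.1 h2]
  exact isAlgebraic_algebraMap _

include ht E in
/-- The ideal of an `L`-point of chart `1` is nonzero. -/
theorem ptIdeal1_ne_bot (q : B1 →ₐ[W] L) : (ptIdeal q : Ideal (L ⊗[W] B1)) ≠ ⊥ := by
  intro h
  have h1 := s_sub_mem_ptIdeal c0 q
  rw [h, Submodule.mem_bot] at h1
  have h2 := congrArg E.ι1 h1
  rw [map_sub, map_zero, E.ι1_apply, E.map_s, E.ι1_apply, E.linear1] at h2
  apply ht.transcendental
  have h3 : t = (algebraMap L (FK M L) (q c0.s))⁻¹ := by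
    rw [← sub_eq_zero.1 h2, inv_inv]
  rw [h3, ← map_inv₀]
  exact isAlgebraic_algebraMap _

variable [IsDedekindDomain (L ⊗[W] B0)] [IsDedekindDomain (L ⊗[W] B1)]

theorem lp_congr {D D' : IdealPair (L ⊗[W] B0) (L ⊗[W] B1) (L ⊗[W] B01)} (e : D = D')
    (h : PairNeBot D) (h' : PairNeBot D') : Eff.lp E D h = Eff.lp E D' h' := by
  subst e
  rfl

theorem cl_congr {D D' : IdealPair (L ⊗[W] B0) (L ⊗[W] B1) (L ⊗[W] B01)} (e : D = D')
    (h : PairNeBot D) (h' : PairNeBot D') :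
    Eff.cl (c0.baseChange L) D h = Eff.cl (c0.baseChange L) D' h' := by
  subst e
  rfl

theorem cl_ptPair0_eq (q : B0 →ₐ[W] L) (h : PairNeBot (ptPair0 c0 q))
    (h' : Module.Invertible (L ⊗[W] B0) (ptIdeal q)) :
    Eff.cl (c0.baseChange L) (ptPair0 c0 q) h = ptClass0 c0 q h' := rfl

theorem cl_ptPair1_eq (q : B1 →ₐ[W] L) (h : PairNeBot (ptPair1 c0 q))
    (h' : Module.Invertible (L ⊗[W] B1) (ptIdeal q)) :
    Eff.cl (c0.baseChange L) (ptPair1 c0 q) h = ptClass1 c0 q h' := rfl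

include ht E in
theorem pairNeBot_ptPair0 (q : B0 →ₐ[W] L) : PairNeBot (ptPair0 c0 q) := by
  have h0 : (ptPair0 c0 q).I0 ≠ ⊥ := ptIdeal0_ne_bot ht E q
  exact ⟨h0, ne_bot1_of_isLine E
    (isLine_ptPair0 c0 q (invertible_ideal_of_ne_bot _ (ptIdeal0_ne_bot ht E q)))⟩

include ht E in
theorem pairNeBot_ptPair1 (q : B1 →ₐ[W] L) : PairNeBot (ptPair1 c0 q) := by
  have h1 : (ptPair1 c0 q).I1 ≠ ⊥ := ptIdeal1_ne_bot ht E q
  exact ⟨ne_bot0_of_isLine E
    (isLine_ptPair1 c0 q (invertible_ideal_of_ne_bot _ (ptIdeal1_ne_bot ht E q))), h1⟩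

variable (PF : PtFacts c0 E)

open Classical in
/-- The ideal pair of the `L`-point under the `L`-rational place `w`. -/
def ptIP (w : RatPl M L) : IdealPair (L ⊗[W] B0) (L ⊗[W] B1) (L ⊗[W] B01) :=
  if hw : cL M L t ∈ w.1.toValuationSubring then
    ptPair0 c0 (Classical.choose (PF.ex0 w.1 w.2 hw))
  else ptPair1 c0 (Classical.choose (PF.ex1 w.1 w.2 hw))

theorem ptIP_of_mem (w : RatPl M L) (hw : cL M L t ∈ w.1.toValuationSubring) (q : B0 →ₐ[W] L)
    (hq : IsPtOf0 c0 E w.1 q) : ptIP E PF w = ptPair0 c0 q := by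
  unfold ptIP
  rw [dif_pos hw]
  congr 1
  exact PF.uniq0 w.1 _ _ (Classical.choose_spec (PF.ex0 w.1 w.2 hw)) hq

theorem ptIP_of_not_mem (w : RatPl M L) (hw : cL M L t ∉ w.1.toValuationSubring)
    (q : B1 →ₐ[W] L) (hq : IsPtOf1 c0 E w.1 q) : ptIP E PF w = ptPair1 c0 q := by
  unfold ptIP
  rw [dif_neg hw]
  congr 1
  exact PF.uniq1 w.1 _ _ (Classical.choose_spec (PF.ex1 w.1 w.2 hw)) hq

include ht in
theorem pairNeBot_ptIP (w : RatPl M L) : PairNeBot (ptIP E PF w) := by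
  unfold ptIP
  split_ifs with hw
  · exact pairNeBot_ptPair0 ht E _
  · exact pairNeBot_ptPair1 ht E _

/-- The divisor of the point pair is `-[w]`. -/
theorem divL_ptIP (w : RatPl M L) :
    LinePair.divL (Eff.lp E (ptIP E PF w) (pairNeBot_ptIP ht E PF w)) =
      - Finsupp.single w.1 1 := by
  apply Fermat.Agent.T1.Dict67.divPt M L t ht w.1 w.2
  by_cases hw : cL M L t ∈ w.1.toValuationSubring
  · have hq := Classical.choose_spec (PF.ex0 w.1 w.2 hw)
    have e : ptIP E PF w = ptPair0 c0 (Classical.choose (PF.ex0 w.1 w.2 hw)) :=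
      ptIP_of_mem E PF w hw _ hq
    rw [lp_congr E e (pairNeBot_ptIP ht E PF w) (pairNeBot_ptPair0 ht E _)]
    exact Fermat.Agent.T1.Dict67.isPtPair_ptPair0 c0 E w.1 hw _ hq _ _ _ _
  · have hq := Classical.choose_spec (PF.ex1 w.1 w.2 hw)
    have e : ptIP E PF w = ptPair1 c0 (Classical.choose (PF.ex1 w.1 w.2 hw)) :=
      ptIP_of_not_mem E PF w hw _ hq
    rw [lp_congr E e (pairNeBot_ptIP ht E PF w) (pairNeBot_ptPair1 ht E _)]
    exact Fermat.Agent.T1.Dict67.isPtPair_ptPair1 c0 E w.1 hw _ hq _ _ _ _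

/-- The class of the point pair is a point class. -/
theorem cl_ptIP_mem (w : RatPl M L) :
    Eff.cl (c0.baseChange L) (ptIP E PF w) (pairNeBot_ptIP ht E PF w) ∈
      (pointClasses c0).PicPt L := by
  by_cases hw : cL M L t ∈ w.1.toValuationSubring
  · have hq := Classical.choose_spec (PF.ex0 w.1 w.2 hw)
    have e : ptIP E PF w = ptPair0 c0 (Classical.choose (PF.ex0 w.1 w.2 hw)) :=
      ptIP_of_mem E PF w hw _ hq
    rw [cl_congr e (pairNeBot_ptIP ht E PF w) (pairNeBot_ptPair0 ht E _),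
      cl_ptPair0_eq _ _ (invertible_ideal_of_ne_bot _ (ptIdeal0_ne_bot ht E _))]
    exact ptClass0_mem_picPt c0 _ _
  · have hq := Classical.choose_spec (PF.ex1 w.1 w.2 hw)
    have e : ptIP E PF w = ptPair1 c0 (Classical.choose (PF.ex1 w.1 w.2 hw)) :=
      ptIP_of_not_mem E PF w hw _ hq
    rw [cl_congr e (pairNeBot_ptIP ht E PF w) (pairNeBot_ptPair1 ht E _),
      cl_ptPair1_eq _ _ (invertible_ideal_of_ne_bot _ (ptIdeal1_ne_bot ht E _))]
    exact ptClass1_mem_picPt c0 _ _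

/-- **The map `D ↦ ∏ [O(-w)]^{D(w)}`** on divisors of `ℚ̄·F_M` (only the `L`-rational part of `D`
counts). -/
def dmap (D : Divisor Qbar (Fbar M)) : PicX c0 L :=
  Additive.toMul (Eff.zCl (c0.baseChange L) (ptIP E PF) (pairNeBot_ptIP ht E PF)
    (Finsupp.subtypeDomain (IsRatPlace L) D))

theorem dmap_add (D D' : Divisor Qbar (Fbar M)) :
    dmap ht E PF (D + D') = dmap ht E PF D * dmap ht E PF D' := by
  unfold dmap
  rw [Finsupp.subtypeDomain_add, map_add, toMul_add]

theorem dmap_mem_picPt (D : Divisor Qbar (Fbar M)) :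
    dmap ht E PF D ∈ (pointClasses c0).PicPt L :=
  Eff.zCl_mem _ _ _ (cl_ptIP_mem ht E PF) _

/-- **The kernel of `dmap` on divisors supported at `L`-rational places = principal divisors.** -/
theorem dmap_eq_one_iff (D : Divisor Qbar (Fbar M)) (hD : ∀ w, D w ≠ 0 → IsRatPlace L w) :
    dmap ht E PF D = 1 ↔ ∃ g : Fbar M, g ≠ 0 ∧ ∀ w : Place Qbar (Fbar M), D w = w.ord g := by
  unfold dmap
  have h1 := Eff.zCl_eq_zero_iff E (ptIP E PF) (pairNeBot_ptIP ht E PF)
    (fun i : RatPl M L => i.1) ht (divL_ptIP ht E PF) (Finsupp.subtypeDomain (IsRatPlace L) D)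
  rw [Eff.zDiv_subtypeDomain (IsRatPlace L) D hD] at h1
  rw [← h1]
  exact Iff.rfl

theorem dmap_sub_mul (X X' : Divisor Qbar (Fbar M)) :
    dmap ht E PF (X - X') * dmap ht E PF X' = dmap ht E PF X := by
  rw [← dmap_add, sub_add_cancel]

/-- **Equality of classes = linear equivalence**, for divisors supported at `L`-rational places. -/
theorem dmap_eq_iff (X X' : Divisor Qbar (Fbar M)) (hX : ∀ w, X w ≠ 0 → IsRatPlace L w)
    (hX' : ∀ w, X' w ≠ 0 → IsRatPlace L w) :
    dmap ht E PF X = dmap ht E PF X' ↔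
      ∃ g : Fbar M, g ≠ 0 ∧ ∀ w : Place Qbar (Fbar M), X w - X' w = w.ord g := by
  have hsub : ∀ w, (X - X') w ≠ 0 → IsRatPlace L w := by
    intro w hw
    rw [Finsupp.sub_apply] at hw
    by_cases h : X w = 0
    · apply hX' w
      intro h'
      apply hw
      rw [h, h', sub_zero]
    · exact hX w h
  rw [← dmap_sub_mul ht E PF X X', mul_eq_right, dmap_eq_one_iff ht E PF _ hsub]
  refine exists_congr fun g => and_congr Iff.rfl (forall_congr' fun w => ?_)
  rw [Finsupp.sub_apply]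

end LevelMap

end Fermat.Agent.T1.Dict59
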