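/-
Programme T1a (S19), brick G7 DICT (helper59): base change `L₁ ≤ L` of `dmap`.

`PicX.map c0 L₁ L (dmap₁ D) = dmap D` for divisors `D` supported at `L₁`-rational places, when the chart
isomorphisms are compatible on pure tensors (`hc0`, `hc1`) and `t = cLL t₁`.
-/
import Mathlib
import Fermat.Agent.T1.Dict59.LevelMap
import Fermat.Agent.T1.Dict67.BaseChange
import Fermat.Agent.T1.Dict22.TorsSection

set_option autoImplicit false
set_option linter.unusedSectionVars false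
set_option linter.style.haveILetI false
set_option synthInstance.maxHeartbeats 400000
set_option maxHeartbeats 1000000

noncomputable section

open HahnSeries AlgebraicCurve ModularCurve IntermediateField TensorProduct
open Fermat.Agent.RED.Interface4
open Fermat.Agent.Jac Fermat.Agent.Jac.LineOps39 Fermat.Agent.Jac.JGroup85Pic
open Fermat.Agent.Jac.AbelJacobi73 Fermat.Agent.T1.Adapt96 Fermat.Agent.T1.Adapt39
open Fermat.Agent.Jac.BaseChange75 Fermat.Agent.T1.RedIface75 Fermat.Agent.T1.PtLine75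
open Fermat.Agent.T1.Dict67
open scoped Fermat.Agent.Jac.BaseChange75

namespace Fermat.Agent.T1.Dict59.LevelMap

variable {W B0 B1 B01 : Type} [CommRing W] [CommRing B0] [CommRing B1] [CommRing B01]
  [Algebra W B0] [Algebra W B1] [Algebra W B01] [Algebra B0 B01] [Algebra B1 B01]
  [IsScalarTower W B0 B01] [IsScalarTower W B1 B01]
  {c0 : TwoChart W B0 B1 B01}
  {M : ℕ} [NeZero M] {L₁ L : IntermediateField ℚ Qbar} (hL : L₁ ≤ L)
  [Algebra W L₁] [Algebra W L] [Algebra L₁ L] [IsScalarTower W L₁ L]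
  (halg : ∀ a : L₁, algebraMap L₁ L a = IntermediateField.inclusion hL a)
  {t₁ : FK M L₁} {t : FK M L}
  (ht₁ : IsCoord M t₁) (ht : IsCoord M t)
  (E₁ : ChartIso (c0.baseChange L₁) t₁) (E : ChartIso (c0.baseChange L) t)
  [IsDedekindDomain (L₁ ⊗[W] B0)] [IsDedekindDomain (L₁ ⊗[W] B1)]
  [IsDedekindDomain (L ⊗[W] B0)] [IsDedekindDomain (L ⊗[W] B1)]
  (PF₁ : PtFacts c0 E₁) (PF : PtFacts c0 E)

theorem cLL_algebraMap (a : L₁) :
    cLL M hL (algebraMap L₁ (FK M L₁) a) = algebraMap L (FK M L) (IntermediateField.inclusion hL a) := by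
  apply Subtype.ext
  show coeffMap (IntermediateField.inclusion hL).toRingHom
      ((algebraMap L₁ (FK M L₁) a : FK M L₁) : LaurentSeries L₁) = _
  exact Fermat.Agent.RED.DESC.CoeffDescent1.coeffMap_algebraMap_of_ringHom
    (IntermediateField.inclusion hL).toRingHom a

include halg in
/-- Base change of the `L₁`-point under a place. -/
theorem isPtOf0_ptComp (hc0 : ∀ b : B0, E.ι0 ((1 : L) ⊗ₜ[W] b) = cLL M hL (E₁.ι0 ((1 : L₁) ⊗ₜ[W] b)))
    (w : Place Qbar (Fbar M)) (q : B0 →ₐ[W] L₁) (hq : IsPtOf0 c0 E₁ w q) :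
    IsPtOf0 c0 E w (ptComp L q) := by
  intro b
  have h1 : E.ι0 ((1 : L) ⊗ₜ[W] b) - algebraMap L (FK M L) (ptComp L q b) =
      cLL M hL (E₁.ι0 ((1 : L₁) ⊗ₜ[W] b) - algebraMap L₁ (FK M L₁) (q b)) := by
    rw [map_sub, hc0 b, cLL_algebraMap, ptComp_apply, halg]
  rcases hq b with h | h
  · left
    rw [hc0 b, h, cLL_algebraMap, ptComp_apply, halg]
  · right
    rw [h1, cL_cLL]
    exact h

include halg in
theorem isPtOf1_ptComp (hc1 : ∀ b : B1, E.ι1 ((1 : L) ⊗ₜ[W] b) = cLL M hL (E₁.ι1 ((1 : L₁) ⊗ₜ[W] b)))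
    (w : Place Qbar (Fbar M)) (q : B1 →ₐ[W] L₁) (hq : IsPtOf1 c0 E₁ w q) :
    IsPtOf1 c0 E w (ptComp L q) := by
  intro b
  have h1 : E.ι1 ((1 : L) ⊗ₜ[W] b) - algebraMap L (FK M L) (ptComp L q b) =
      cLL M hL (E₁.ι1 ((1 : L₁) ⊗ₜ[W] b) - algebraMap L₁ (FK M L₁) (q b)) := by
    rw [map_sub, hc1 b, cLL_algebraMap, ptComp_apply, halg]
  rcases hq b with h | h
  · left
    rw [hc1 b, h, cLL_algebraMap, ptComp_apply, halg]
  · right
    rw [h1, cL_cLL]
    exact h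

/-- The inclusion of the `L₁`-rational places into the `L`-rational places. -/
def inclRat : RatPl M L₁ → RatPl M L := fun w =>
  ⟨w.1, Fermat.Agent.T1.Dict22.TorsSection.isRatPlace_mono hL w.2⟩

theorem inclRat_injective : Function.Injective (inclRat (M := M) hL) := by
  intro w w' h
  have h1 : (inclRat (M := M) hL w).1 = (inclRat (M := M) hL w').1 := congrArg Subtype.val h
  exact Subtype.ext h1

theorem subtypeDomain_inclRat (D : Divisor Qbar (Fbar M)) (hD : ∀ w, D w ≠ 0 → IsRatPlace L₁ w) :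
    Finsupp.subtypeDomain (IsRatPlace L) D =
      (Finsupp.subtypeDomain (IsRatPlace L₁) D).mapDomain (inclRat hL) := by
  ext w
  by_cases hw : IsRatPlace L₁ w.1
  · have h1 : (Finsupp.subtypeDomain (IsRatPlace L₁) D).mapDomain (inclRat hL)
        (inclRat hL ⟨w.1, hw⟩) = (Finsupp.subtypeDomain (IsRatPlace L₁) D) ⟨w.1, hw⟩ :=
      Finsupp.mapDomain_apply (inclRat_injective hL) _ _
    have h2 : inclRat hL ⟨w.1, hw⟩ = w := Subtype.ext rfl
    rw [h2] at h1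
    rw [h1]
    rfl
  · have h0 : D w.1 = 0 := by
      by_contra h
      exact hw (hD w.1 h)
    rw [Finsupp.subtypeDomain_apply, h0]
    symm
    apply Finsupp.mapDomain_of_notMem_range
    rintro ⟨i, hi⟩
    apply hw
    have : i.1 = w.1 := congrArg Subtype.val hi
    rw [← this]
    exact i.2

variable (htt : t = cLL M hL t₁)
  (hc0 : ∀ b : B0, E.ι0 ((1 : L) ⊗ₜ[W] b) = cLL M hL (E₁.ι0 ((1 : L₁) ⊗ₜ[W] b)))
  (hc1 : ∀ b : B1, E.ι1 ((1 : L) ⊗ₜ[W] b) = cLL M hL (E₁.ι1 ((1 : L₁) ⊗ₜ[W] b)))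

include halg htt hc0 hc1 in
/-- Base change of the class of a point pair. -/
theorem map_cl_ptIP (w : RatPl M L₁) :
    PicX.map c0 L₁ L
      (Eff.cl (c0.baseChange L₁) (ptIP E₁ PF₁ w) (pairNeBot_ptIP ht₁ E₁ PF₁ w)) =
      Eff.cl (c0.baseChange L) (ptIP E PF (inclRat hL w))
        (pairNeBot_ptIP ht E PF (inclRat hL w)) := by
  have hchart : cL M L t ∈ w.1.toValuationSubring ↔ cL M L₁ t₁ ∈ w.1.toValuationSubring := by
    rw [htt, cL_cLL]
  by_cases hw : cL M L₁ t₁ ∈ w.1.toValuationSubring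
  · have hq := Classical.choose_spec (PF₁.ex0 w.1 w.2 hw)
    set q := Classical.choose (PF₁.ex0 w.1 w.2 hw) with hqdef
    have e1 : ptIP E₁ PF₁ w = ptPair0 c0 q := ptIP_of_mem E₁ PF₁ w hw q hq
    have hw' : cL M L t ∈ (inclRat (M := M) hL w).1.toValuationSubring := hchart.2 hw
    have e2 : ptIP E PF (inclRat hL w) = ptPair0 c0 (ptComp L q) :=
      ptIP_of_mem E PF (inclRat hL w) hw' _ (isPtOf0_ptComp hL halg E₁ E hc0 w.1 q hq)
    rw [cl_congr e1 (pairNeBot_ptIP ht₁ E₁ PF₁ w) (pairNeBot_ptPair0 ht₁ E₁ _),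
      cl_congr e2 (pairNeBot_ptIP ht E PF (inclRat hL w)) (pairNeBot_ptPair0 ht E _),
      cl_ptPair0_eq _ _ (invertible_ideal_of_ne_bot _ (ptIdeal0_ne_bot ht₁ E₁ q)),
      cl_ptPair0_eq _ _ (invertible_ideal_of_ne_bot _ (ptIdeal0_ne_bot ht E (ptComp L q)))]
    exact map_ptClass0 c0 L q _ _
  · have hq := Classical.choose_spec (PF₁.ex1 w.1 w.2 hw)
    set q := Classical.choose (PF₁.ex1 w.1 w.2 hw) with hqdef
    have e1 : ptIP E₁ PF₁ w = ptPair1 c0 q := ptIP_of_not_mem E₁ PF₁ w hw q hq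
    have hw' : cL M L t ∉ (inclRat (M := M) hL w).1.toValuationSubring :=
      fun h => hw (hchart.1 h)
    have e2 : ptIP E PF (inclRat hL w) = ptPair1 c0 (ptComp L q) :=
      ptIP_of_not_mem E PF (inclRat hL w) hw' _ (isPtOf1_ptComp hL halg E₁ E hc1 w.1 q hq)
    rw [cl_congr e1 (pairNeBot_ptIP ht₁ E₁ PF₁ w) (pairNeBot_ptPair1 ht₁ E₁ _),
      cl_congr e2 (pairNeBot_ptIP ht E PF (inclRat hL w)) (pairNeBot_ptPair1 ht E _),
      cl_ptPair1_eq _ _ (invertible_ideal_of_ne_bot _ (ptIdeal1_ne_bot ht₁ E₁ q)),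
      cl_ptPair1_eq _ _ (invertible_ideal_of_ne_bot _ (ptIdeal1_ne_bot ht E (ptComp L q)))]
    exact map_ptClass1 c0 L q _ _

include halg htt hc0 hc1 in
/-- **Base change of `dmap`.** -/
theorem map_dmap (D : Divisor Qbar (Fbar M)) (hD : ∀ w, D w ≠ 0 → IsRatPlace L₁ w) :
    PicX.map c0 L₁ L (dmap ht₁ E₁ PF₁ D) = dmap ht E PF D := by
  unfold dmap
  rw [subtypeDomain_inclRat hL D hD]
  exact Eff.zCl_map (ptIP E₁ PF₁) (pairNeBot_ptIP ht₁ E₁ PF₁) (ptIP E PF) (pairNeBot_ptIP ht E PF)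
    (PicX.map c0 L₁ L) (inclRat hL)
    (map_cl_ptIP hL halg ht₁ ht E₁ E PF₁ PF htt hc0 hc1) _

end Fermat.Agent.T1.Dict59.LevelMap
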