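/-
Programme T1a (S19), brick G7 DICT (helper59): Galois equivariance of `dmap` at one level `L`.

`H : ChartAction c0 G`, `R : SemiAction H L`, `g : G` acting on `L` as the restriction of `σ ∈ Gal(ℚ̄/ℚ)`
(`L/ℚ` normal), on the charts compatibly with the arithmetic action on `L·F_M`
(`hgal0`, `hgal1`, `ht_gal`).  Then `actPic H R g (dmap D) = dmap (σ • D)`.
-/
import Mathlib
import Fermat.Agent.T1.Dict59.LevelMap
import Fermat.Agent.T1.Dict22.PtGal
import Fermat.Agent.T1.GalAct44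

set_option autoImplicit false
set_option linter.unusedSectionVars false
set_option linter.style.haveILetI false
set_option synthInstance.maxHeartbeats 400000
set_option maxHeartbeats 1000000

noncomputable section

open HahnSeries AlgebraicCurve ModularCurve IntermediateField TensorProduct
open Fermat.Agent.RED.Interface4
open Fermat.Agent.Jac Fermat.Agent.Jac.LineOps39 Fermat.Agent.Jac.JGroup85Pic
open Fermat.Agent.Jac.AbelJacobi73 Fermat.Agent.T1.Adapt96 Fermat.Agent.T1.Adapt39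
open Fermat.Agent.Jac.BaseChange75 Fermat.Agent.T1.RedIface75 Fermat.Agent.T1.PtLine75
open Fermat.Agent.T1.GalAct44 Fermat.Agent.T1.Dict67
open scoped Fermat.Agent.Jac.BaseChange75

namespace Fermat.Agent.T1.Dict59.LevelMap

variable {W B0 B1 B01 : Type} [CommRing W] [CommRing B0] [CommRing B1] [CommRing B01]
  [Algebra W B0] [Algebra W B1] [Algebra W B01] [Algebra B0 B01] [Algebra B1 B01]
  [IsScalarTower W B0 B01] [IsScalarTower W B1 B01]
  {c0 : TwoChart W B0 B1 B01}
  {M : ℕ} [NeZero M] {L : IntermediateField ℚ Qbar} [Normal ℚ L] [Algebra W L] {t : FK M L}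
  (ht : IsCoord M t) (E : ChartIso (c0.baseChange L) t)
  [IsDedekindDomain (L ⊗[W] B0)] [IsDedekindDomain (L ⊗[W] B1)]
  (PF : PtFacts c0 E)
  {G : Type} [Group G] (H : ChartAction c0 G) (R : SemiAction H L)

/-- The permutation of the `L`-rational places induced by `σ`. -/
def galRat (σ : GQ) : RatPl M L ≃ RatPl M L where
  toFun w := ⟨gal M σ • w.1, Fermat.Agent.T1.Dict22.RatValue.isRatPlace_smul M L σ w.1 w.2⟩
  invFun w := ⟨gal M σ⁻¹ • w.1, Fermat.Agent.T1.Dict22.RatValue.isRatPlace_smul M L σ⁻¹ w.1 w.2⟩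
  left_inv w := by
    apply Subtype.ext
    show gal M σ⁻¹ • (gal M σ • w.1) = w.1
    rw [← mul_smul, ← map_mul, inv_mul_cancel, map_one, one_smul]
  right_inv w := by
    apply Subtype.ext
    show gal M σ • (gal M σ⁻¹ • w.1) = w.1
    rw [← mul_smul, ← map_mul, mul_inv_cancel, map_one, one_smul]

theorem subtypeDomain_smul (σ : GQ) (D : Divisor Qbar (Fbar M)) :
    Finsupp.subtypeDomain (IsRatPlace L) (gal M σ • D) =
      (Finsupp.subtypeDomain (IsRatPlace L) D).mapDomain (galRat (M := M) (L := L) σ) := by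
  ext w
  rw [Finsupp.mapDomain_equiv_apply, Finsupp.subtypeDomain_apply, Finsupp.subtypeDomain_apply,
    SemilinearAut.divisor_smul_apply]
  show D ((arithmeticGalois (modularFunctionFieldFull M) σ)⁻¹ • w.1) =
    D (arithmeticGalois (modularFunctionFieldFull M) σ⁻¹ • w.1)
  rw [map_inv]

variable (g : G) (σ : GQ) (hR : ∀ a : L, R.f g a = σ.restrictNormal L a)
  (ht_gal : arith M L (σ.restrictNormal L) t = t)
  (hgal0 : ∀ b : B0, E.ι0 ((1 : L) ⊗ₜ[W] ((H.S g).σ0 b)) =
    arith M L (σ.restrictNormal L) (E.ι0 ((1 : L) ⊗ₜ[W] b)))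
  (hgal1 : ∀ b : B1, E.ι1 ((1 : L) ⊗ₜ[W] ((H.S g).σ1 b)) =
    arith M L (σ.restrictNormal L) (E.ι1 ((1 : L) ⊗ₜ[W] b)))

include hR hgal0 in
theorem isPtOf0_twist (w : Place Qbar (Fbar M)) (q : B0 →ₐ[W] L) (hq : IsPtOf0 c0 E w q) :
    IsPtOf0 c0 E (gal M σ • w) (twistPt0 H R g q) :=
  Fermat.Agent.T1.Dict22.PtGal.isPt_galois M L σ w (fun b => E.ι0 ((1 : L) ⊗ₜ[W] b)) (H.S g).σ0
    (H.σ0_surjective g) hgal0 (fun b => q b) (fun b => twistPt0 H R g q b)
    (fun b => by rw [twistPt0_σ0, hR]) hq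

include hR hgal1 in
theorem isPtOf1_twist (w : Place Qbar (Fbar M)) (q : B1 →ₐ[W] L) (hq : IsPtOf1 c0 E w q) :
    IsPtOf1 c0 E (gal M σ • w) (twistPt1 H R g q) :=
  Fermat.Agent.T1.Dict22.PtGal.isPt_galois M L σ w (fun b => E.ι1 ((1 : L) ⊗ₜ[W] b)) (H.S g).σ1
    (H.σ1_surjective g) hgal1 (fun b => q b) (fun b => twistPt1 H R g q b)
    (fun b => by rw [twistPt1_σ1, hR]) hq

include hR ht_gal hgal0 hgal1 in
/-- The action on the class of a point pair. -/
theorem actPic_cl_ptIP (w : RatPl M L) :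
    actPic H R g (Eff.cl (c0.baseChange L) (ptIP E PF w) (pairNeBot_ptIP ht E PF w)) =
      Eff.cl (c0.baseChange L) (ptIP E PF (galRat σ w)) (pairNeBot_ptIP ht E PF (galRat σ w)) := by
  have hchart := Fermat.Agent.T1.Dict22.PtGal.mem_smul_iff_of_fixed M L σ w.1 t ht_gal
  by_cases hw : cL M L t ∈ w.1.toValuationSubring
  · have hq := Classical.choose_spec (PF.ex0 w.1 w.2 hw)
    set q := Classical.choose (PF.ex0 w.1 w.2 hw) with hqdef
    have e1 : ptIP E PF w = ptPair0 c0 q := ptIP_of_mem E PF w hw q hq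
    have hw' : cL M L t ∈ (galRat (M := M) (L := L) σ w).1.toValuationSubring := hchart.2 hw
    have e2 : ptIP E PF (galRat σ w) = ptPair0 c0 (twistPt0 H R g q) :=
      ptIP_of_mem E PF (galRat σ w) hw' _ (isPtOf0_twist E H R g σ hR hgal0 w.1 q hq)
    rw [cl_congr e1 (pairNeBot_ptIP ht E PF w) (pairNeBot_ptPair0 ht E _),
      cl_congr e2 (pairNeBot_ptIP ht E PF (galRat σ w)) (pairNeBot_ptPair0 ht E _),
      cl_ptPair0_eq _ _ (invertible_ideal_of_ne_bot _ (ptIdeal0_ne_bot ht E q)),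
      cl_ptPair0_eq _ _ (invertible_ideal_of_ne_bot _ (ptIdeal0_ne_bot ht E (twistPt0 H R g q)))]
    exact actPic_ptClass0 H R g q _ _
  · have hq := Classical.choose_spec (PF.ex1 w.1 w.2 hw)
    set q := Classical.choose (PF.ex1 w.1 w.2 hw) with hqdef
    have e1 : ptIP E PF w = ptPair1 c0 q := ptIP_of_not_mem E PF w hw q hq
    have hw' : cL M L t ∉ (galRat (M := M) (L := L) σ w).1.toValuationSubring :=
      fun h => hw (hchart.1 h)
    have e2 : ptIP E PF (galRat σ w) = ptPair1 c0 (twistPt1 H R g q) :=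
      ptIP_of_not_mem E PF (galRat σ w) hw' _ (isPtOf1_twist E H R g σ hR hgal1 w.1 q hq)
    rw [cl_congr e1 (pairNeBot_ptIP ht E PF w) (pairNeBot_ptPair1 ht E _),
      cl_congr e2 (pairNeBot_ptIP ht E PF (galRat σ w)) (pairNeBot_ptPair1 ht E _),
      cl_ptPair1_eq _ _ (invertible_ideal_of_ne_bot _ (ptIdeal1_ne_bot ht E q)),
      cl_ptPair1_eq _ _ (invertible_ideal_of_ne_bot _ (ptIdeal1_ne_bot ht E (twistPt1 H R g q)))]
    exact actPic_ptClass1 H R g q _ _

include hR ht_gal hgal0 hgal1 in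
/-- **Galois equivariance of `dmap`.** -/
theorem actPic_dmap (D : Divisor Qbar (Fbar M)) :
    actPic H R g (dmap ht E PF D) = dmap ht E PF (gal M σ • D) := by
  unfold dmap
  rw [subtypeDomain_smul σ D]
  exact Eff.zCl_map (ptIP E PF) (pairNeBot_ptIP ht E PF) (ptIP E PF) (pairNeBot_ptIP ht E PF)
    (actPic H R g) (galRat σ)
    (actPic_cl_ptIP ht E PF H R g σ hR ht_gal hgal0 hgal1) _

end Fermat.Agent.T1.Dict59.LevelMap
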