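/-
Programme T1a (S19), brick G7 DICT (helper59): **DICT-FINAL**.

`dictFinal (Fam : ChartIsoFamily ℓ M c0 H) (hW : WCompat ℓ M c0 H) (k) : DictFinal ℓ M c0 H hW k`:
the `ℓ^k`-torsion of `J₀(M)` embeds, compatibly with the action of `G_ℓ` and with enlarging `L`, into
the subgroup of `Pic X_L` generated by the classes of `L`-points of the hub.
-/
import Mathlib
import Fermat.Agent.T1.Dict59.LevelGal
import Fermat.Agent.T1.Dict59.LevelBC
import Fermat.Agent.T1.Dict59.Family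
import Fermat.Agent.T1.Dict22.TorsSection

set_option autoImplicit false
set_option linter.unusedSectionVars false
set_option linter.style.haveILetI false
set_option synthInstance.maxHeartbeats 400000
set_option maxHeartbeats 2000000

noncomputable section

open TensorProduct IntermediateField AlgebraicCurve ModularCurve

namespace Fermat.Agent.T1.Dict59

open Fermat.Agent Fermat.Agent.Jac Fermat.Agent.T1.RedIface75 Fermat.Agent.TW.B5.Iface
open Fermat.Agent.T1.HubInst98 Fermat.Agent.T1.GalAct44 Fermat.Agent.T1.Assembly41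
open Fermat.Agent.RED.Interface4 Fermat.Agent.T1.Adapt96 Fermat.Agent.Flat44
open Fermat.Agent.Jac.BaseChange75 Fermat.Agent.T1.Dict67
open scoped Fermat.Agent.Jac.BaseChange75

/-! ### Divisor classes: bookkeeping -/

section Pic

variable {M : ℕ}

/-- Equal classes in `Pic⁰` differ by a principal divisor. -/
theorem principal_of_mk_eq {D D' : Divisor.degZero (K := Qbar) (F := Fbar M)}
    (h : Pic0.mk D = Pic0.mk D') :
    ∃ g : Fbar M, g ≠ 0 ∧ ∀ w : Place Qbar (Fbar M),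
      (D : Divisor Qbar (Fbar M)) w - (D' : Divisor Qbar (Fbar M)) w = w.ord g := by
  have h1 : -D + D' ∈ (Divisor.principal (K := Qbar) (F := Fbar M)).addSubgroupOf
      (Divisor.degZero (K := Qbar) (F := Fbar M)) := QuotientAddGroup.eq.1 h
  rw [AddSubgroup.mem_addSubgroupOf] at h1
  obtain ⟨f, hf, hfw⟩ := h1
  refine ⟨f⁻¹, inv_ne_zero hf, fun w => ?_⟩
  have := hfw w
  rw [AddSubgroup.coe_add, AddSubgroup.coe_neg, Finsupp.add_apply, Finsupp.neg_apply] at this
  rw [w.ord_inv]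
  omega

/-- Divisors of degree `0` differing by a principal divisor have the same class. -/
theorem mk_eq_of_principal {D D' : Divisor.degZero (K := Qbar) (F := Fbar M)}
    (h : ∃ g : Fbar M, g ≠ 0 ∧ ∀ w : Place Qbar (Fbar M),
      (D : Divisor Qbar (Fbar M)) w - (D' : Divisor Qbar (Fbar M)) w = w.ord g) :
    Pic0.mk D = Pic0.mk D' := by
  obtain ⟨g, hg, hgw⟩ := h
  apply QuotientAddGroup.eq.2
  rw [AddSubgroup.mem_addSubgroupOf]
  refine ⟨g⁻¹, inv_ne_zero hg, fun w => ?_⟩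
  have := hgw w
  rw [AddSubgroup.coe_add, AddSubgroup.coe_neg, Finsupp.add_apply, Finsupp.neg_apply, w.ord_inv]
  omega

end Pic

/-! ### The theorem -/

variable (ℓ : ℕ) [Fact ℓ.Prime] (M : ℕ) [NeZero M]
  {B0 B1 B01 : Type} [CommRing B0] [CommRing B1] [CommRing B01]
  [Algebra (Wr ℓ M) B0] [Algebra (Wr ℓ M) B1] [Algebra (Wr ℓ M) B01] [Algebra B0 B01]
  [Algebra B1 B01] [IsScalarTower (Wr ℓ M) B0 B01] [IsScalarTower (Wr ℓ M) B1 B01]
  (c0 : TwoChart (Wr ℓ M) B0 B1 B01) (H : ChartAction c0 (Gp ℓ))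

set_option maxHeartbeats 4000000 in
/-- **DICT-FINAL.** -/
theorem dictFinal (Fam : ChartIsoFamily ℓ M c0 H) (hW : WCompat ℓ M c0 H) (k : ℕ) :
    DictFinal ℓ M c0 H hW k := by
  have hℓ : (ℓ : ℤ) ≠ 0 := by exact_mod_cast (Fact.out : ℓ.Prime).ne_zero
  have ha : ((ℓ : ℤ) ^ k) ≠ 0 := pow_ne_zero _ hℓ
  obtain ⟨L₀, hfd, D, hD, hrat⟩ :=
    Fermat.Agent.T1.Dict22.TorsSection.exists_torsion_section M ((ℓ : ℤ) ^ k) ha
  refine ⟨L₀, hfd, ?_⟩
  intro L₁ _ _ hle₁ hL₀
  letI := algAKL (padicPlace ℓ) hle₁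
  haveI := Fermat.Agent.T1.Dict84.isDedekindDomain_R0 (Fam.E L₁ hle₁) (Fam.isCoord L₁ hle₁)
  haveI := Fermat.Agent.T1.Dict84.isDedekindDomain_R1 (Fam.E L₁ hle₁) (Fam.isCoord L₁ hle₁)
  have hrat₁ : ∀ y w, (D y : Divisor Qbar (Fbar M)) w ≠ 0 → IsRatPlace L₁ w := fun y w hw =>
    Fermat.Agent.T1.Dict22.TorsSection.isRatPlace_mono hL₀ (hrat y w hw)
  refine ⟨fun y => LevelMap.dmap (Fam.isCoord L₁ hle₁) (Fam.E L₁ hle₁) (ptFacts c0 _)
    (D y : Divisor Qbar (Fbar M)), fun y => LevelMap.dmap_mem_picPt _ _ _ _, ?_⟩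
  intro L _ _ hL
  letI := algAKL (padicPlace ℓ) (hle₁.trans hL)
  letI := algKL hL
  haveI := isScalarTower_W_L_L ℓ M hle₁ hL
  haveI := Fermat.Agent.T1.Dict84.isDedekindDomain_R0 (Fam.E L (hle₁.trans hL))
    (Fam.isCoord L (hle₁.trans hL))
  haveI := Fermat.Agent.T1.Dict84.isDedekindDomain_R1 (Fam.E L (hle₁.trans hL))
    (Fam.isCoord L (hle₁.trans hL))
  have hratL : ∀ y w, (D y : Divisor Qbar (Fbar M)) w ≠ 0 → IsRatPlace L w := fun y w hw =>
    Fermat.Agent.T1.Dict22.TorsSection.isRatPlace_mono hL (hrat₁ y w hw)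
  set ht := Fam.isCoord L (hle₁.trans hL) with htdef
  set E := Fam.E L (hle₁.trans hL) with hEdef
  have PF : PtFacts c0 E := ptFacts c0 E
  refine ⟨fun y => LevelMap.dmap ht E PF (D y : Divisor Qbar (Fbar M)), ?_, ?_,
    fun y => LevelMap.dmap_mem_picPt _ _ _ _, ?_, ?_⟩
  · -- multiplicativity
    intro x y
    show LevelMap.dmap ht E PF (D (x + y) : Divisor Qbar (Fbar M)) =
      LevelMap.dmap ht E PF (D x : Divisor Qbar (Fbar M)) *
        LevelMap.dmap ht E PF (D y : Divisor Qbar (Fbar M))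
    rw [← LevelMap.dmap_add]
    have hsum : ∀ w, ((D x : Divisor Qbar (Fbar M)) + (D y : Divisor Qbar (Fbar M))) w ≠ 0 →
        IsRatPlace L w := by
      intro w hw
      rw [Finsupp.add_apply] at hw
      by_cases h : (D x : Divisor Qbar (Fbar M)) w = 0
      · apply hratL y w
        intro h'
        apply hw
        rw [h, h', add_zero]
      · exact hratL x w h
    rw [LevelMap.dmap_eq_iff ht E PF _ _ (hratL (x + y)) hsum]
    have hmk : Pic0.mk (D (x + y)) = Pic0.mk (D x + D y) := by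
      rw [Pic0.mk_add, hD, hD, hD]
      rfl
    exact principal_of_mk_eq hmk
  · -- injectivity
    intro x y hxy
    have hxy' : LevelMap.dmap ht E PF (D x : Divisor Qbar (Fbar M)) =
        LevelMap.dmap ht E PF (D y : Divisor Qbar (Fbar M)) := hxy
    rw [LevelMap.dmap_eq_iff ht E PF _ _ (hratL x) (hratL y)] at hxy'
    have := mk_eq_of_principal hxy'
    rw [hD, hD] at this
    exact Subtype.ext this
  · -- equivariance
    intro σ y
    set σ' : GQ := localGaloisToGlobal ℓ σ with hσ'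
    show LevelMap.dmap ht E PF (D (locActM ℓ M k σ y) : Divisor Qbar (Fbar M)) =
      actPic H (semiL hW L (hle₁.trans hL)) σ
        (LevelMap.dmap ht E PF (D y : Divisor Qbar (Fbar M)))
    rw [LevelMap.actPic_dmap ht E PF H (semiL hW L (hle₁.trans hL)) σ σ' (fun a => rfl)
      (Fam.t_gal L (hle₁.trans hL) σ) (Fam.gal0 L (hle₁.trans hL) σ)
      (Fam.gal1 L (hle₁.trans hL) σ)]
    have hgalrat : ∀ w, (gal M σ' • (D y : Divisor Qbar (Fbar M))) w ≠ 0 → IsRatPlace L w := by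
      intro w hw
      rw [SemilinearAut.divisor_smul_apply] at hw
      have h1 := Fermat.Agent.T1.Dict22.RatValue.isRatPlace_smul M L σ' _ (hratL y _ hw)
      rwa [smul_inv_smul] at h1
    rw [LevelMap.dmap_eq_iff ht E PF _ _ (hratL _) hgalrat]
    have hmk : Pic0.mk (D (locActM ℓ M k σ y)) =
        Pic0.mk (SemilinearAut.degZeroSMulHom (gal M σ') (D y)) := by
      rw [hD, ← SemilinearAut.pic0_smul_mk, hD]
      rfl
    exact principal_of_mk_eq hmk
  · -- base change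
    intro y
    exact LevelMap.map_dmap hL (fun a => rfl) (Fam.isCoord L₁ hle₁) ht (Fam.E L₁ hle₁) E
      (ptFacts c0 _) PF (Fam.t_tower L₁ L hle₁ hL) (Fam.tower0 L₁ L hle₁ hL)
      (Fam.tower1 L₁ L hle₁ hL) (D y : Divisor Qbar (Fbar M)) (hrat₁ y)

end Fermat.Agent.T1.Dict59
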