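/-
Programme T1a (S19) / export T1A-X (report 1093), brick G7 DICT (helper59): **DICT-FINAL for a finitely
generated `G_ℓ`-stable subgroup** of `J₀(M)` (instead of the `ℓ^k`-torsion).

`dictFinalGen (Fam : ChartIsoFamily ℓ M c0 H) (hW : WCompat ℓ M c0 H) (S : AddSubgroup (JZero M))
  (hfg : S.FG) (hS : S is stable under G_ℓ) : DictFinalGen ℓ M c0 H hW S hS`:
`S` embeds, compatibly with the action of `G_ℓ` and with enlarging `L`, into the subgroup of
`Pic X_L` generated by the classes of `L`-points of the hub.  (No torsion hypothesis is used anywhere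
in the chain `Dict59`; this is the input of the Kummer-extension variant of the hub assembly:
`S = {y : ℓ^k y ∈ ℤ x}` for a `G_ℓ`-fixed point `x`.)
-/
import Mathlib
import Fermat.Agent.T1.Dict59.Final

set_option autoImplicit false
set_option linter.unusedSectionVars false
set_option linter.style.haveILetI false
set_option synthInstance.maxHeartbeats 400000
set_option maxHeartbeats 2000000

noncomputable section

open TensorProduct IntermediateField AlgebraicCurve ModularCurve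

namespace Fermat.Agent.T1.Dict59

open Fermat.Agent Fermat.Agent.Jac Fermat.Agent.T1.RedIface75 Fermat.Agent.TW.B5.Iface
open Fermat.Agent.T1.HubInst98 Fermat.Agent.T1.GalAct44 Fermat.Agent.T1.Assembly41
open Fermat.Agent.RED.Interface4 Fermat.Agent.T1.Adapt96 Fermat.Agent.Flat44
open Fermat.Agent.Jac.BaseChange75 Fermat.Agent.T1.Dict67
open scoped Fermat.Agent.Jac.BaseChange75

/-! ### The section over a finitely generated subgroup -/

/-- Divisors of degree `0` representing the elements of a finitely generated subgroup of `J₀(M)`, all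
supported on places rational over ONE number field. -/
theorem exists_fg_section (M : ℕ) [NeZero M] (S : AddSubgroup (JZero M)) (hfg : S.FG) :
    ∃ (L₀ : IntermediateField ℚ Qbar) (_ : FiniteDimensional ℚ L₀)
      (D : ↥S → Divisor.degZero (K := Qbar) (F := Fbar M)),
      (∀ y, Pic0.mk (D y) = (y : JZero M)) ∧
      ∀ y w, (D y : Divisor Qbar (Fbar M)) w ≠ 0 → IsRatPlace L₀ w := by
  classical
  obtain ⟨T, hT⟩ := hfg
  choose D₀ hD₀ using fun y : JZero M => Pic0.mk_surjective y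
  obtain ⟨L₀, -, hfin, -, hrat⟩ := Fermat.Agent.T1.Dict22.RatLevel.ratLevel M ⊥
    (T.biUnion fun y => (D₀ y : Divisor Qbar (Fbar M)).support)
  have key : ∀ y ∈ S, ∃ D : Divisor.degZero (K := Qbar) (F := Fbar M),
      Pic0.mk D = y ∧ ∀ w, (D : Divisor Qbar (Fbar M)) w ≠ 0 → IsRatPlace L₀ w := by
    intro y hy
    rw [← hT] at hy
    induction hy using AddSubgroup.closure_induction with
    | mem t ht =>
      refine ⟨D₀ t, hD₀ t, fun w hw => hrat w ?_⟩
      rw [Finset.mem_biUnion]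
      exact ⟨t, ht, Finsupp.mem_support_iff.2 hw⟩
    | zero =>
      refine ⟨0, Pic0.mk_zero, fun w hw => ?_⟩
      exact absurd rfl hw
    | add a b _ _ iha ihb =>
      obtain ⟨Da, hDa, hra⟩ := iha
      obtain ⟨Db, hDb, hrb⟩ := ihb
      refine ⟨Da + Db, by rw [Pic0.mk_add, hDa, hDb], fun w hw => ?_⟩
      rw [AddSubgroup.coe_add, Finsupp.add_apply] at hw
      by_cases h : (Da : Divisor Qbar (Fbar M)) w = 0
      · apply hrb w
        intro h'
        apply hw
        rw [h, h', add_zero]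
      · exact hra w h
    | neg a _ iha =>
      obtain ⟨Da, hDa, hra⟩ := iha
      refine ⟨-Da, by rw [← hDa]; rfl, fun w hw => ?_⟩
      rw [AddSubgroup.coe_neg, Finsupp.neg_apply] at hw
      exact hra w (fun h => hw (by rw [h, neg_zero]))
  choose D hD using key
  exact ⟨L₀, hfin, fun y => D y.1 y.2, fun y => (hD y.1 y.2).1, fun y => (hD y.1 y.2).2⟩

/-! ### The statement -/

variable (ℓ : ℕ) [Fact ℓ.Prime] (M : ℕ) [NeZero M]
  {B0 B1 B01 : Type} [CommRing B0] [CommRing B1] [CommRing B01]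
  [Algebra (Wr ℓ M) B0] [Algebra (Wr ℓ M) B1] [Algebra (Wr ℓ M) B01] [Algebra B0 B01]
  [Algebra B1 B01] [IsScalarTower (Wr ℓ M) B0 B01] [IsScalarTower (Wr ℓ M) B1 B01]
  (c0 : TwoChart (Wr ℓ M) B0 B1 B01) (H : ChartAction c0 (Gp ℓ))

/-- The action of `G_ℓ` on a stable subgroup of `J₀(M)`. -/
def subAct (S : AddSubgroup (JZero M))
    (hS : ∀ (σ : Gp ℓ) (y : JZero M), y ∈ S → localGaloisToGlobal ℓ σ • y ∈ S) (σ : Gp ℓ)
    (y : ↥S) : ↥S :=
  ⟨localGaloisToGlobal ℓ σ • (y : JZero M), hS σ y y.2⟩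

/-- **DICT-FINAL for a `G_ℓ`-stable subgroup `S`** of `J₀(M)`: the shape of `Assembly41.DictFinal`
with `TorsM ℓ M k` replaced by `↥S`. -/
def DictFinalGen (hW : WCompat ℓ M c0 H) (S : AddSubgroup (JZero M))
    (hS : ∀ (σ : Gp ℓ) (y : JZero M), y ∈ S → localGaloisToGlobal ℓ σ • y ∈ S) : Prop :=
  ∃ L₀ : IntermediateField ℚ Qbar, FiniteDimensional ℚ L₀ ∧
    ∀ (L₁ : IntermediateField ℚ Qbar) [FiniteDimensional ℚ L₁] [Normal ℚ L₁]
      (hle₁ : K1 M ≤ L₁), L₀ ≤ L₁ →
      letI := algAKL (padicPlace ℓ) hle₁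
      ∃ d₁ : ↥S → PicX c0 ↥L₁,
        (∀ y, d₁ y ∈ (PtLine75.pointClasses c0).PicPt ↥L₁) ∧
        ∀ (L : IntermediateField ℚ Qbar) [FiniteDimensional ℚ L] [Normal ℚ L] (hL : L₁ ≤ L),
          letI := algAKL (padicPlace ℓ) (hle₁.trans hL)
          letI := algKL hL
          haveI := isScalarTower_W_L_L ℓ M hle₁ hL
          ∃ d : ↥S → PicX c0 ↥L,
            (∀ x y, d (x + y) = d x * d y) ∧ Function.Injective d ∧
            (∀ y, d y ∈ (PtLine75.pointClasses c0).PicPt ↥L) ∧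
            (∀ σ y, d (subAct ℓ M S hS σ y) = actPic H (semiL hW L (hle₁.trans hL)) σ (d y)) ∧
            ∀ y, PicX.map c0 ↥L₁ ↥L (d₁ y) = d y

/-! ### The theorem -/

set_option maxHeartbeats 4000000 in
/-- **DICT-FINAL for a finitely generated `G_ℓ`-stable subgroup.** -/
theorem dictFinalGen (Fam : ChartIsoFamily ℓ M c0 H) (hW : WCompat ℓ M c0 H)
    (S : AddSubgroup (JZero M)) (hfg : S.FG)
    (hS : ∀ (σ : Gp ℓ) (y : JZero M), y ∈ S → localGaloisToGlobal ℓ σ • y ∈ S) :
    DictFinalGen ℓ M c0 H hW S hS := by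
  obtain ⟨L₀, hfd, D, hD, hrat⟩ := exists_fg_section M S hfg
  refine ⟨L₀, hfd, ?_⟩
  intro L₁ _ _ hle₁ hL₀
  letI := algAKL (padicPlace ℓ) hle₁
  haveI := Fermat.Agent.T1.Dict84.isDedekindDomain_R0 (Fam.E L₁ hle₁) (Fam.isCoord L₁ hle₁)
  haveI := Fermat.Agent.T1.Dict84.isDedekindDomain_R1 (Fam.E L₁ hle₁) (Fam.isCoord L₁ hle₁)
  have hrat₁ : ∀ y w, (D y : Divisor Qbar (Fbar M)) w ≠ 0 → IsRatPlace L₁ w := fun y w hw =>
    Fermat.Agent.T1.Dict22.TorsSection.isRatPlace_mono hL₀ (hrat y w hw)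
  refine ⟨fun y => LevelMap.dmap (Fam.isCoord L₁ hle₁) (Fam.E L₁ hle₁) (ptFacts c0 _)
    (D y : Divisor Qbar (Fbar M)), fun y => LevelMap.dmap_mem_picPt _ _ _ _, ?_⟩
  intro L _ _ hL
  letI := algAKL (padicPlace ℓ) (hle₁.trans hL)
  letI := algKL hL
  haveI := isScalarTower_W_L_L ℓ M hle₁ hL
  haveI := Fermat.Agent.T1.Dict84.isDedekindDomain_R0 (Fam.E L (hle₁.trans hL))
    (Fam.isCoord L (hle₁.trans hL))
  haveI := Fermat.Agent.T1.Dict84.isDedekindDomain_R1 (Fam.E L (hle₁.trans hL))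
    (Fam.isCoord L (hle₁.trans hL))
  have hratL : ∀ y w, (D y : Divisor Qbar (Fbar M)) w ≠ 0 → IsRatPlace L w := fun y w hw =>
    Fermat.Agent.T1.Dict22.TorsSection.isRatPlace_mono hL (hrat₁ y w hw)
  set ht := Fam.isCoord L (hle₁.trans hL) with htdef
  set E := Fam.E L (hle₁.trans hL) with hEdef
  have PF : PtFacts c0 E := ptFacts c0 E
  refine ⟨fun y => LevelMap.dmap ht E PF (D y : Divisor Qbar (Fbar M)), ?_, ?_,
    fun y => LevelMap.dmap_mem_picPt _ _ _ _, ?_, ?_⟩
  · -- multiplicativity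
    intro x y
    show LevelMap.dmap ht E PF (D (x + y) : Divisor Qbar (Fbar M)) =
      LevelMap.dmap ht E PF (D x : Divisor Qbar (Fbar M)) *
        LevelMap.dmap ht E PF (D y : Divisor Qbar (Fbar M))
    rw [← LevelMap.dmap_add]
    have hsum : ∀ w, ((D x : Divisor Qbar (Fbar M)) + (D y : Divisor Qbar (Fbar M))) w ≠ 0 →
        IsRatPlace L w := by
      intro w hw
      rw [Finsupp.add_apply] at hw
      by_cases h : (D x : Divisor Qbar (Fbar M)) w = 0
      · apply hratL y w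
        intro h'
        apply hw
        rw [h, h', add_zero]
      · exact hratL x w h
    rw [LevelMap.dmap_eq_iff ht E PF _ _ (hratL (x + y)) hsum]
    have hmk : Pic0.mk (D (x + y)) = Pic0.mk (D x + D y) := by
      rw [Pic0.mk_add, hD, hD, hD]
      rfl
    exact principal_of_mk_eq hmk
  · -- injectivity
    intro x y hxy
    have hxy' : LevelMap.dmap ht E PF (D x : Divisor Qbar (Fbar M)) =
        LevelMap.dmap ht E PF (D y : Divisor Qbar (Fbar M)) := hxy
    rw [LevelMap.dmap_eq_iff ht E PF _ _ (hratL x) (hratL y)] at hxy'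
    have := mk_eq_of_principal hxy'
    rw [hD, hD] at this
    exact Subtype.ext this
  · -- equivariance
    intro σ y
    set σ' : GQ := localGaloisToGlobal ℓ σ with hσ'
    show LevelMap.dmap ht E PF (D (subAct ℓ M S hS σ y) : Divisor Qbar (Fbar M)) =
      actPic H (semiL hW L (hle₁.trans hL)) σ
        (LevelMap.dmap ht E PF (D y : Divisor Qbar (Fbar M)))
    rw [LevelMap.actPic_dmap ht E PF H (semiL hW L (hle₁.trans hL)) σ σ' (fun a => rfl)
      (Fam.t_gal L (hle₁.trans hL) σ) (Fam.gal0 L (hle₁.trans hL) σ)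
      (Fam.gal1 L (hle₁.trans hL) σ)]
    have hgalrat : ∀ w, (gal M σ' • (D y : Divisor Qbar (Fbar M))) w ≠ 0 → IsRatPlace L w := by
      intro w hw
      rw [SemilinearAut.divisor_smul_apply] at hw
      have h1 := Fermat.Agent.T1.Dict22.RatValue.isRatPlace_smul M L σ' _ (hratL y _ hw)
      rwa [smul_inv_smul] at h1
    rw [LevelMap.dmap_eq_iff ht E PF _ _ (hratL _) hgalrat]
    have hmk : Pic0.mk (D (subAct ℓ M S hS σ y)) =
        Pic0.mk (SemilinearAut.degZeroSMulHom (gal M σ') (D y)) := by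
      rw [hD, ← SemilinearAut.pic0_smul_mk, hD]
      rfl
    exact principal_of_mk_eq hmk
  · -- base change
    intro y
    exact LevelMap.map_dmap hL (fun a => rfl) (Fam.isCoord L₁ hle₁) ht (Fam.E L₁ hle₁) E
      (ptFacts c0 _) PF (Fam.t_tower L₁ L hle₁ hL) (Fam.tower0 L₁ L hle₁ hL)
      (Fam.tower1 L₁ L hle₁ hL) (D y : Divisor Qbar (Fbar M)) (hrat₁ y)

end Fermat.Agent.T1.Dict59
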