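/-
Fermat/Agent/T1/Dict59/FastInst10.lean  (helper10, S19 build-time audit, report kind='ci' stmt='S19')

OPTIONAL SPEED-UP for NEW files working with the DICT vocabulary (`T1/Dict59`, `Dict22`, `Dict67`,
`Adapt39`, `Adapt96`: line pairs over `L ⊂ ℚ̄`, `FK M L = L·F_M`, base changes `c0.baseChange ↥L`).

Typeclass search at the types `↥L`, `↥(FK M L)`, `↥L ⊗[W] B` is slow:
* `Algebra ↥L ↥(FK M L)` and `Algebra Qbar ↥(Fbar M)` take 5-10 s PER QUERY (the search runs failing
  side searches `SMul Qbar ↥L`, `Algebra Qbar (LaurentSeries ↥L)`, ...), 15-25 queries per file;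
* the two base-change algebras `Algebra ↥L (↥L ⊗[W] B)`, `Algebra (↥L ⊗[W] B) (↥L ⊗[W] B')` take
  about 1 s per query and are re-elaborated in EVERY declaration having `c0.baseChange ↥L` in a
  `variable` binder.

`open scoped Fermat.Agent.T1.Dict59.FastInst10` installs high-priority shortcut instances
(definitionally the instances found by the slow search, so statements are unchanged up to
reducible unfolding).  Measured on the landed DICT files: `Dict59/EffCore` 287 s → 65 s,
`Dict59/Iface` 185 s → 27 s, `Dict59/LevelMap` 130 s → 57 s (on top of the first two shortcuts),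
whole DICT closure (54 modules) 50 min → 11 min on 4 cores.

This file is a LEAF: nothing in a landed closure imports it.
-/
import Mathlib
import Fermat.Agent.RED.Interface4
import Fermat.Agent.Jac.BaseChange75.Rings

set_option autoImplicit false

noncomputable section

namespace Fermat.Agent.T1.Dict59.FastInst10

open Fermat.Agent.RED.Interface4

variable (M : ℕ) (L : IntermediateField ℚ Qbar)

/-- shortcut instance: `Algebra L (L·F_M)`. -/
scoped instance (priority := 10000) algLFK : Algebra ↥L ↥(FK M L) := inferInstance

/-- shortcut instance: `Algebra ℚ̄ (ℚ̄·F_M)`. -/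
scoped instance (priority := 10000) algQbarFbar : Algebra Qbar ↥(Fbar M) := inferInstance

/-- shortcut instance: `Algebra L (L ⊗[W] B)`. -/
scoped instance (priority := 10000) algLTensor {W B : Type} [CommRing W] [CommRing B]
    [Algebra W B] [Algebra W L] : Algebra ↥L (TensorProduct W ↥L B) := inferInstance

/-- shortcut instance: `Algebra (L ⊗[W] B) (L ⊗[W] B')`: the scoped instance `algRight` of
`Jac.BaseChange75` (which has priority 900, so the default search finds it last). -/
scoped instance (priority := 10000) algTensorTensor {W B B' : Type} [CommRing W] [CommRing B]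
    [CommRing B'] [Algebra W B] [Algebra W B'] [Algebra B B'] [IsScalarTower W B B']
    [Algebra W L] : Algebra (TensorProduct W ↥L B) (TensorProduct W ↥L B') :=
  Fermat.Agent.Jac.BaseChange75.algRight W ↥L B B'

end Fermat.Agent.T1.Dict59.FastInst10
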