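/-
Programme T1a (S19), brick G7 DICT (helper59): the GENERIC saturation lemma behind (D-INJ).

`K ⊂ L` fields (`L/K` integral, characteristic zero), `F/K` and `F'/L` function fields with a common
generator `t`, `B = ` integral closure of `K[t]` in `F` (a Dedekind domain).  A nonzero finitely generated
`B`-submodule `I ⊂ F` (a fractional ideal) is SATURATED for the orders at the `L`-places of `F'` where
`t` is finite: if at each such place `v` the order of `x` is at least the order of some nonzero element
of `I`, then `x ∈ I`.

Proof: `I` is invertible; for `y ∈ I⁻¹` the product `x y` is finite at all these places, hence lies in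
`B` (`PlaceIntegral3.mem_intRing_of_forall_place_map`); so `x ∈ (I⁻¹)⁻¹ = I`.
-/
import Mathlib
import Fermat.Agent.RED.PUR.PlaceIntegral3

set_option autoImplicit false
set_option linter.unusedSectionVars false

open AlgebraicCurve IsDedekindDomain IntermediateField nonZeroDivisors

namespace Fermat.Agent.T1.Dict59.SatCore

open Fermat.Agent.X0.FF Fermat.Agent.X0.FFDedekind Fermat.Agent.RED.PUR.PlaceIntegral3

variable {K L F F' : Type*} [Field K] [Field L] [Field F] [Field F']
  [Algebra K L] [Algebra K F] [Algebra L F'] [Algebra K F'] [Algebra F F']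
  [IsScalarTower K L F'] [IsScalarTower K F F'] [Algebra.IsIntegral K L] [CharZero K] [CharZero L]

/-- **Saturation.** -/
theorem mem_of_forall_place {t : F} (ht : IsGen K t) (ht' : IsGen L (algebraMap F F' t))
    (I : Submodule (intRing K t) F) (hfg : I.FG) (hne : I ≠ ⊥) (x : F)
    (h : ∀ v : Place L F', algebraMap F F' t ∈ v.toValuationSubring →
      ∃ a ∈ I, a ≠ 0 ∧ v.ord (algebraMap F F' a) ≤ v.ord (algebraMap F F' x)) : x ∈ I := by
  by_cases hx0 : x = 0
  · rw [hx0]; exact zero_mem _
  have hDed := isDedekindDomain_intRing ht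
  have hFrac := isFractionRing_intRing ht
  have hfrac : IsFractional (intRing K t)⁰ I := FractionalIdeal.isFractional_of_fg hfg
  let J : FractionalIdeal (intRing K t)⁰ F := ⟨I, hfrac⟩
  have hJmem : ∀ z : F, z ∈ J ↔ z ∈ I := fun z => Iff.rfl
  have hJ0 : J ≠ 0 := by
    intro h0
    apply hne
    rw [eq_bot_iff]
    intro z hz
    have : z ∈ J := (hJmem z).2 hz
    rw [h0, FractionalIdeal.mem_zero_iff] at this
    rw [this]; exact zero_mem _
  have hJinv : J⁻¹ ≠ 0 := inv_ne_zero hJ0
  have key : x ∈ (J⁻¹)⁻¹ := by
    rw [FractionalIdeal.mem_inv_iff hJinv]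
    intro y hy
    rw [FractionalIdeal.mem_inv_iff hJ0] at hy
    rw [FractionalIdeal.mem_one_iff]
    have hxy : x * y ∈ intRing K t := by
      apply mem_intRing_of_forall_place_map (K := K) (L := L) ht'
      intro v hv
      obtain ⟨a, haI, ha0, hle⟩ := h v hv
      have hya : y * a ∈ (1 : FractionalIdeal (intRing K t)⁰ F) := hy a ((hJmem a).2 haI)
      rw [FractionalIdeal.mem_one_iff] at hya
      obtain ⟨b, hb⟩ := hya
      have hya' : y * a ∈ intRing K t := by
        rw [← hb]; exact b.2
      have h1 : algebraMap F F' (y * a) ∈ v.toValuationSubring :=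
        map_mem_of_mem_intRing (K := K) (L := L) hya' v hv
      have hx' : algebraMap F F' x ≠ 0 := (map_ne_zero_iff _ (algebraMap F F').injective).2 hx0
      have ha' : algebraMap F F' a ≠ 0 := (map_ne_zero_iff _ (algebraMap F F').injective).2 ha0
      have h2 : algebraMap F F' x * (algebraMap F F' a)⁻¹ ∈ v.toValuationSubring := by
        apply mem_of_ord_nonneg
        rw [v.ord_mul hx' (inv_ne_zero ha'), v.ord_inv]
        omega
      have h3 : algebraMap F F' (x * y) =
          algebraMap F F' x * (algebraMap F F' a)⁻¹ * algebraMap F F' (y * a) := by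
        rw [map_mul, map_mul]
        field_simp
      rw [h3]
      exact v.toValuationSubring.mul_mem _ _ h2 h1
    exact ⟨⟨x * y, hxy⟩, rfl⟩
  rw [inv_inv] at key
  exact (hJmem x).1 key

end Fermat.Agent.T1.Dict59.SatCore
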