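/-
Programme T1a (S19), brick G7 DICT (helper59): (D-INJ).

* `LinePair.scale f hf P`      : the line pair `f • P`;
* `isGen_cL`                   : a coordinate `t` of `L·F_M` stays a coordinate of `ℚ̄·F_M`;
* `mem_of_ord_ge`              : SATURATION of finitely generated modules over the chart `C0(L)` for the
                                 orders at the places of the `ℚ̄`-curve (from `SatCore`);
* `eq_of_divFun_eq`            : a line pair is determined by its divisor function;
* `FunDescent`                 : (statement, proved in `T1/Dict67/FunDescent.lean`) a function of `ℚ̄·F_M`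
                                 whose divisor is a difference of divisors of line pairs over `L` is a
                                 constant times a function of `L·F_M`;
* `scaleOfPrincipal`           : `FunDescent M → ScaleOfPrincipal M`.
-/
import Mathlib
import Fermat.Agent.T1.Dict59.Iface2
import Fermat.Agent.T1.Dict59.DivCalc
import Fermat.Agent.T1.Dict59.SatCore

set_option autoImplicit false
set_option linter.unusedSectionVars false
set_option linter.style.haveILetI false
set_option synthInstance.maxHeartbeats 400000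
set_option maxHeartbeats 1000000

noncomputable section

open HahnSeries AlgebraicCurve ModularCurve IntermediateField
open Fermat.Agent.RED.Interface4 Fermat.Agent.X0.FF

namespace Fermat.Agent.T1.Dict59

open OrdInf

/-! ### Generic: scaling a line pair, transfer of finite generation -/

section Generic

variable {K F : Type*} [Field K] [Field F] [Algebra K F]

/-- The line pair `f • P`. -/
def LinePair.scale {t : F} (f : F) (hf : f ≠ 0) (P : LinePair K t) : LinePair K t where
  I0 := P.I0.map (LinearMap.mulLeft (C0 (K := K) t) f)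
  I1 := P.I1.map (LinearMap.mulLeft (C1 (K := K) t) f)
  fg0 := P.fg0.map _
  fg1 := P.fg1.map _
  ne0 := by
    intro h
    obtain ⟨y, hy, hy0⟩ := Submodule.exists_mem_ne_zero_of_ne_bot P.ne0
    have : f * y ∈ P.I0.map (LinearMap.mulLeft (C0 (K := K) t) f) :=
      Submodule.mem_map.2 ⟨y, hy, rfl⟩
    rw [h, Submodule.mem_bot] at this
    exact (mul_ne_zero hf hy0) this
  ne1 := by
    intro h
    obtain ⟨y, hy, hy0⟩ := Submodule.exists_mem_ne_zero_of_ne_bot P.ne1
    have : f * y ∈ P.I1.map (LinearMap.mulLeft (C1 (K := K) t) f) :=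
      Submodule.mem_map.2 ⟨y, hy, rfl⟩
    rw [h, Submodule.mem_bot] at this
    exact (mul_ne_zero hf hy0) this
  ov01 := by
    intro x hx
    obtain ⟨y, hy, rfl⟩ := Submodule.mem_map.1 hx
    obtain ⟨k, hk⟩ := P.ov01 y hy
    refine ⟨k, Submodule.mem_map.2 ⟨t⁻¹ ^ k * y, hk, ?_⟩⟩
    simp only [LinearMap.mulLeft_apply]
    ring
  ov10 := by
    intro x hx
    obtain ⟨y, hy, rfl⟩ := Submodule.mem_map.1 hx
    obtain ⟨k, hk⟩ := P.ov10 y hy
    refine ⟨k, Submodule.mem_map.2 ⟨t ^ k * y, hk, ?_⟩⟩
    simp only [LinearMap.mulLeft_apply]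
    ring

theorem LinePair.isScale_scale {t : F} (f : F) (hf : f ≠ 0) (P : LinePair K t) :
    LinePair.IsScale f P (P.scale f hf) := by
  constructor
  · intro x
    constructor
    · intro hx
      obtain ⟨y, hy, rfl⟩ := Submodule.mem_map.1 hx
      exact ⟨y, hy, rfl⟩
    · rintro ⟨y, hy, rfl⟩
      exact Submodule.mem_map.2 ⟨y, hy, rfl⟩
  · intro x
    constructor
    · intro hx
      obtain ⟨y, hy, rfl⟩ := Submodule.mem_map.1 hx
      exact ⟨y, hy, rfl⟩
    · rintro ⟨y, hy, rfl⟩
      exact Submodule.mem_map.2 ⟨y, hy, rfl⟩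

/-- Finite generation only depends on the carrier and on the set of homotheties. -/
theorem fg_of_carrier_eq {R R' A : Type*} [Semiring R] [Semiring R'] [AddCommMonoid A]
    [Module R A] [Module R' A] (I : Submodule R A) (I' : Submodule R' A)
    (hc : ∀ x, x ∈ I ↔ x ∈ I') (hsmul : ∀ (c : R) (x : A), ∃ c' : R', c • x = c' • x)
    (h : I.FG) : I'.FG := by
  obtain ⟨s, hs⟩ := h
  refine ⟨s, le_antisymm ?_ ?_⟩
  · rw [Submodule.span_le]
    intro x hx
    refine (hc x).1 ?_
    rw [← hs]
    exact Submodule.subset_span hx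
  · intro x hx
    have hx' : x ∈ Submodule.span R (s : Set A) := by
      rw [hs]; exact (hc x).2 hx
    clear hx
    induction hx' using Submodule.span_induction with
    | mem y hy => exact Submodule.subset_span hy
    | zero => exact zero_mem _
    | add y z _ _ hy hz => exact add_mem hy hz
    | smul c y _ hy =>
      obtain ⟨c', hc'⟩ := hsmul c y
      rw [hc']
      exact Submodule.smul_mem _ c' hy

end Generic

/-! ### The concrete setting -/

variable {M : ℕ} {L : IntermediateField ℚ Qbar}

theorem isIntegral_L_Qbar (L : IntermediateField ℚ Qbar) : Algebra.IsIntegral L Qbar := by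
  have h1 : Algebra.IsAlgebraic ℚ Qbar := AlgebraicClosure.isAlgebraic ℚ
  have h2 : Algebra.IsAlgebraic L Qbar := Algebra.IsAlgebraic.tower_top (K := ℚ) L
  exact Algebra.IsAlgebraic.isIntegral

/-- The algebra structure `L·F_M → ℚ̄·F_M` given by `cL` (local to this file). -/
@[reducible] def algCL (M : ℕ) (L : IntermediateField ℚ Qbar) : Algebra (FK M L) (Fbar M) :=
  (cL M L).toAlgebra

attribute [local instance] algCL

theorem algebraMap_cL (x : FK M L) : algebraMap (FK M L) (Fbar M) x = cL M L x := rfl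

theorem isScalarTower_cL : IsScalarTower L (FK M L) (Fbar M) :=
  IsScalarTower.of_algebraMap_eq (fun a => by
    rw [algebraMap_cL, cL_algebraMap, ← IsScalarTower.algebraMap_apply L Qbar (Fbar M)])

theorem transcendental_cL {t : FK M L} (ht : Transcendental L t) :
    Transcendental Qbar (cL M L t) := by
  intro halg
  apply ht
  haveI := isIntegral_L_Qbar L
  haveI := isScalarTower_cL (M := M) (L := L)
  have h1 : IsAlgebraic L (cL M L t) := halg.restrictScalars L
  rw [← algebraMap_cL] at h1
  exact (isAlgebraic_algebraMap_iff (algebraMap (FK M L) (Fbar M)).injective).1 h1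

variable [NeZero M]

theorem isGen_cL {t : FK M L} (ht : IsCoord M t) : IsGen Qbar (cL M L t) :=
  (Fermat.Agent.RED.TOP.FbarFacts20.isGen_j M).of_transcendental
    (transcendental_cL ht.transcendental)

theorem IsCoord.nonConst {t : FK M L} (ht : IsCoord M t) : NonConst M t := ht.transcendental

/-- **Saturation** of finitely generated modules over the chart `C0(L)`. -/
theorem mem_of_ord_ge {t : FK M L} (ht : IsCoord M t) (I : Submodule (C0 (K := L) t) (FK M L))
    (hfg : I.FG) (hne : I ≠ ⊥) (x : FK M L)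
    (h : ∀ w : Place Qbar (Fbar M), cL M L t ∈ w.toValuationSubring →
      ∃ a ∈ I, a ≠ 0 ∧ w.ord (cL M L a) ≤ w.ord (cL M L x)) : x ∈ I := by
  haveI := isIntegral_L_Qbar L
  haveI := isScalarTower_cL (M := M) (L := L)
  let I' : Submodule (intRing L t) (FK M L) :=
    { carrier := (I : Set (FK M L))
      add_mem' := fun ha hb => I.add_mem ha hb
      zero_mem' := I.zero_mem
      smul_mem' := fun c y hy => I.smul_mem (⟨c.1, c.2⟩ : C0 (K := L) t) hy }
  have hmem : ∀ y, y ∈ I ↔ y ∈ I' := fun y => Iff.rfl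
  have hfg' : I'.FG :=
    fg_of_carrier_eq I I' hmem (fun c y => ⟨(⟨c.1, c.2⟩ : intRing L t), rfl⟩) hfg
  have hne' : I' ≠ ⊥ := by
    intro h0
    apply hne
    rw [eq_bot_iff]
    intro y hy
    have : y ∈ I' := (hmem y).1 hy
    rw [h0, Submodule.mem_bot] at this
    rw [this]; exact zero_mem _
  have := SatCore.mem_of_forall_place (K := L) (L := Qbar) (F := FK M L) (F' := Fbar M)
    ht (isGen_cL ht) I' hfg' hne' x (fun v hv => h v hv)
  exact (hmem x).2 this

/-- Chart `1` lands in the valuation ring of a place where `t⁻¹` is regular. -/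
theorem cL_C1_mem' (w : Place Qbar (Fbar M)) {t : FK M L}
    (ht : (cL M L t)⁻¹ ∈ w.toValuationSubring) :
    ∀ c ∈ C1 (K := L) t, cL M L c ∈ w.toValuationSubring := by
  refine map_C0_mem (cL M L) w (cL_const_mem w) ?_
  rw [map_inv₀]
  exact ht

theorem ord_cL_eq_zero_of_unit (w : Place Qbar (Fbar M)) {t : FK M L}
    (h0 : cL M L t ∈ w.toValuationSubring) (h1 : (cL M L t)⁻¹ ∈ w.toValuationSubring) :
    w.ord (cL M L t) = 0 := by
  have a := ord_nonneg_of_mem w h0
  have b := ord_nonneg_of_mem w h1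
  rw [w.ord_inv] at b
  omega

/-- On the overlap the two chart modules of a line pair have the same order. -/
theorem ordInf_I1_eq_I0 {t : FK M L} (ht0 : t ≠ 0) (P : LinePair L t) (w : Place Qbar (Fbar M))
    (h0 : cL M L t ∈ w.toValuationSubring) (h1 : (cL M L t)⁻¹ ∈ w.toValuationSubring) :
    ordInf (cL M L) w (P.I1 : Set (FK M L)) = ordInf (cL M L) w (P.I0 : Set (FK M L)) := by
  have hC0 := cL_C0_mem w h0
  have hC1 := cL_C1_mem' w h1
  have hord : w.ord (cL M L t) = 0 := ord_cL_eq_zero_of_unit w h0 h1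
  have hct : cL M L t ≠ 0 := (map_ne_zero (cL M L)).2 ht0
  apply le_antisymm
  · obtain ⟨a, ha, ha0, hao⟩ := exists_ordInf_eq (cL M L) w hC0 P.I0 P.fg0 P.ne0
    obtain ⟨k, hk⟩ := P.ov01 a ha
    have hne : t⁻¹ ^ k * a ≠ 0 := mul_ne_zero (pow_ne_zero _ (inv_ne_zero ht0)) ha0
    have h2 := ordInf_le (cL M L) w hC1 P.I1 P.fg1 hk hne
    have h3 : w.ord (cL M L (t⁻¹ ^ k * a)) = w.ord (cL M L a) := by
      rw [map_mul, map_pow, map_inv₀,
        w.ord_mul (pow_ne_zero _ (inv_ne_zero hct)) ((map_ne_zero (cL M L)).2 ha0),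
        ord_pow, w.ord_inv, hord]
      simp
    rw [h3, hao] at h2
    exact h2
  · obtain ⟨a, ha, ha0, hao⟩ := exists_ordInf_eq (cL M L) w hC1 P.I1 P.fg1 P.ne1
    obtain ⟨k, hk⟩ := P.ov10 a ha
    have hne : t ^ k * a ≠ 0 := mul_ne_zero (pow_ne_zero _ ht0) ha0
    have h2 := ordInf_le (cL M L) w hC0 P.I0 P.fg0 hk hne
    have h3 : w.ord (cL M L (t ^ k * a)) = w.ord (cL M L a) := by
      rw [map_mul, map_pow,
        w.ord_mul (pow_ne_zero _ hct) ((map_ne_zero (cL M L)).2 ha0), ord_pow, hord]
      simp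
    rw [h3, hao] at h2
    exact h2

/-- Comparison of modules over the chart `C0(L)` by their orders. -/
theorem le_of_ordInf_le {t : FK M L} (ht : IsCoord M t) (I I' : Submodule (C0 (K := L) t) (FK M L))
    (hfg : I.FG) (hne : I ≠ ⊥) (hfg' : I'.FG)
    (h : ∀ w : Place Qbar (Fbar M), cL M L t ∈ w.toValuationSubring →
      ordInf (cL M L) w (I : Set (FK M L)) ≤ ordInf (cL M L) w (I' : Set (FK M L))) :
    ∀ x ∈ I', x ∈ I := by
  intro x hx
  by_cases hx0 : x = 0
  · rw [hx0]; exact zero_mem _
  apply mem_of_ord_ge ht I hfg hne x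
  intro w hw
  have hC0 := cL_C0_mem w hw
  obtain ⟨a, ha, ha0, hao⟩ := exists_ordInf_eq (cL M L) w hC0 I hfg hne
  refine ⟨a, ha, ha0, ?_⟩
  rw [hao]
  exact (h w hw).trans (ordInf_le (cL M L) w hC0 I' hfg' hx hx0)

/-- **A line pair is determined by its divisor function.** -/
theorem eq_of_divFun_eq {t : FK M L} (ht : IsCoord M t) (P P' : LinePair L t)
    (h : ∀ w : Place Qbar (Fbar M), LinePair.divFun P w = LinePair.divFun P' w) : P = P' := by
  have ht0 : t ≠ 0 := by
    intro h0
    apply ht.transcendental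
    rw [h0]
    exact isAlgebraic_zero
  have hinv : IsCoord M t⁻¹ := IsGen.inv ht
  -- chart 0
  have e0 : ∀ w : Place Qbar (Fbar M), cL M L t ∈ w.toValuationSubring →
      ordInf (cL M L) w (P.I0 : Set (FK M L)) = ordInf (cL M L) w (P'.I0 : Set (FK M L)) := by
    intro w hw
    have := h w
    rw [LinePair.divFun_of_mem P w hw, LinePair.divFun_of_mem P' w hw] at this
    omega
  -- chart 1
  have e1 : ∀ w : Place Qbar (Fbar M), cL M L t⁻¹ ∈ w.toValuationSubring →
      ordInf (cL M L) w (P.I1 : Set (FK M L)) = ordInf (cL M L) w (P'.I1 : Set (FK M L)) := by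
    intro w hw
    rw [map_inv₀] at hw
    by_cases hw0 : cL M L t ∈ w.toValuationSubring
    · rw [ordInf_I1_eq_I0 ht0 P w hw0 hw, ordInf_I1_eq_I0 ht0 P' w hw0 hw]
      exact e0 w hw0
    · have := h w
      rw [LinePair.divFun_of_not_mem P w hw0, LinePair.divFun_of_not_mem P' w hw0] at this
      omega
  apply LinePair.ext'
  · intro x
    constructor
    · exact le_of_ordInf_le ht P'.I0 P.I0 P'.fg0 P'.ne0 P.fg0 (fun w hw => (e0 w hw).ge) x
    · exact le_of_ordInf_le ht P.I0 P'.I0 P.fg0 P.ne0 P'.fg0 (fun w hw => (e0 w hw).le) x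
  · intro x
    constructor
    · exact le_of_ordInf_le hinv P'.I1 P.I1 P'.fg1 P'.ne1 P.fg1 (fun w hw => (e1 w hw).ge) x
    · exact le_of_ordInf_le hinv P.I1 P'.I1 P.fg1 P.ne1 P'.fg1 (fun w hw => (e1 w hw).le) x

/-! ### (D-INJ) -/

variable (M) in
/-- **(D-GDESC)** (proved in `T1/Dict67/FunDescent.lean`): a function of `ℚ̄·F_M` whose divisor is a
difference of divisors of line pairs over `L` is a constant times a function of `L·F_M`. -/
def FunDescent : Prop :=
  ∀ (L : IntermediateField ℚ Qbar) (t : FK M L), NonConst M t → ∀ (P P' : LinePair L t) (g : Fbar M),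
    g ≠ 0 →
    (∀ w : Place Qbar (Fbar M), LinePair.divL P' w = LinePair.divL P w - w.ord g) →
    ∃ (c : Qbar) (f : FK M L), c ≠ 0 ∧ f ≠ 0 ∧ g = algebraMap Qbar (Fbar M) c * cL M L f

/-- **(D-INJ, general form)**. -/
theorem scaleOfPrincipal (hdesc : FunDescent M) : ScaleOfPrincipal M := by
  intro L t ht P P' hg
  obtain ⟨g, hg0, hg⟩ := hg
  have hnc : NonConst M t := ht.nonConst
  obtain ⟨c, f, hc, hf, hgf⟩ := hdesc L t hnc P P' g hg0 hg
  refine ⟨f, hf, ?_⟩
  have hPP : P.scale f hf = P' := by
    apply eq_of_divFun_eq ht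
    intro w
    rw [← divL_apply hnc, ← divL_apply hnc, hg w,
      clsSmul L t hnc f hf P (P.scale f hf) (LinePair.isScale_scale f hf P) w, hgf,
      w.ord_mul ((map_ne_zero _).2 hc) ((map_ne_zero (cL M L)).2 hf), ord_algebraMap, zero_add]
  rw [← hPP]
  exact LinePair.isScale_scale f hf P

end Fermat.Agent.T1.Dict59
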