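/-
Programme T1a (S19), brick G7 DICT (helper59): (D-INJ) closed.
`scaleOfPrincipal_holds : ScaleOfPrincipal M` from `Dict59/Inj.scaleOfPrincipal` and helper67's
`Dict67/FunDescent.exists_descent_fun`.
-/
import Mathlib
import Fermat.Agent.T1.Dict59.Inj
import Fermat.Agent.T1.Dict67.FunDescent

set_option autoImplicit false

noncomputable section

open Fermat.Agent.RED.Interface4

namespace Fermat.Agent.T1.Dict59

variable (M : ℕ) [NeZero M]

theorem funDescent_holds : FunDescent M :=
  fun L t ht P P' g hg h => Fermat.Agent.T1.Dict67.exists_descent_fun M L t ht P P' g hg h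

/-- **(D-INJ, general form)**: if `divL P' = divL P - div g` for a nonzero function `g` of `ℚ̄·F_M`,
then `P' = f • P` for some nonzero `f ∈ L·F_M`. -/
theorem scaleOfPrincipal_holds : ScaleOfPrincipal M := scaleOfPrincipal (funDescent_holds M)

end Fermat.Agent.T1.Dict59
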